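import Mathlib
import Fermat.Agent.Lib.UnitDiscBC

/-!
# Base change of the Gauss hypothesis (i) of the Model Theorem

`O` a DVR with uniformiser `π`, `E = Frac O` of characteristic zero.  `F` is a field over `E`,
`j : F` transcendental, `F / E(j)` finite and "Gauss-unramified" in the elementwise
trace-discriminant shape of `Fermat.Agent.S30.Model.GaussUnram`.  `L' = F[u]` is a field generated
over `F` by an element `u` with `A(u) = j * D(u)`, where `A, D : O[X]` and `A / D` is not constant
modulo `π`.  Then `u` is transcendental, `L' / E(u)` is finite, and `L' / E(u)` is again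
Gauss-unramified (same shape).  No hypothesis on `E(u) / E(j)` at `π` is needed (the residue
extension may be inseparable): a unit discriminant survives every base change.

Everything is stated in unfolded form, so the file imports only `Mathlib` and `Lib.UnitDiscBC`.
-/

set_option autoImplicit false

open Polynomial

namespace Fermat.Agent.S30.AuxA.GaussBC

open scoped nonZeroDivisors

section abstract

variable {R' K' L'' K L : Type*}
  [CommRing R'] [IsDomain R'] [IsPrincipalIdealRing R']
  [Field K'] [Algebra R' K'] [IsFractionRing R' K']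
  [Field L''] [Algebra K' L''] [Algebra R' L''] [IsScalarTower R' K' L'']
  [Field K] [Field L] [Algebra K L]
  [Algebra K K'] [Algebra L L''] [Algebra K L''] [IsScalarTower K L L''] [IsScalarTower K K' L'']
  [FiniteDimensional K' L''] [Algebra.IsSeparable K' L'']
  [FiniteDimensional K L] [Algebra.IsSeparable K L]

/-- **Abstract form.**  `R'` a PID with fraction field `K'`, `L'' = K' · L`; `b` a `K`-basis of `L`
of elements integral "over `R'`" whose discriminant is (the image of) a unit of `R'`.  Then `L''`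
has a `K'`-basis of `R'`-integral elements whose trace discriminant is a unit of `R'`. -/
theorem exists_family_isUnit_det
    (hgen : Algebra.adjoin K' (Set.range (algebraMap L L'')) = ⊤)
    {ι : Type*} [Fintype ι] [DecidableEq ι] (b : Module.Basis ι K L)
    (hbint : ∀ j, ∃ p : R'[X], p.Monic ∧ ∃ q : K[X],
      q.map (algebraMap K K') = p.map (algebraMap R' K') ∧ aeval (b j) q = 0)
    (d : R') (hdu : IsUnit d)
    (hd : algebraMap K K' (Algebra.discr K b) = algebraMap R' K' d) :
    ∃ c : Fin (Module.finrank K' L'') → L'', (∀ l, IsIntegral R' (c l)) ∧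
      ∃ δ : R', IsUnit δ ∧ (Algebra.traceMatrix K' c).det = algebraMap R' K' δ := by
  classical
  have : Algebra.IsAlgebraic K' L'' := Algebra.IsAlgebraic.of_finite K' L''
  have hinjR' : Function.Injective (algebraMap R' L'') := by
    rw [IsScalarTower.algebraMap_eq R' K' L'']
    exact (algebraMap K' L'').injective.comp (IsFractionRing.injective R' K')
  have : Module.IsTorsionFree R' L'' := by
    have : FaithfulSMul R' L'' := (faithfulSMul_iff_algebraMap_injective R' L'').mpr hinjR'
    infer_instance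
  let C'' := integralClosure R' L''
  have : IsIntegralClosure C'' R' L'' := integralClosure.isIntegralClosure R' L''
  have : Module.Free R' C'' := IsIntegralClosure.module_free R' K' L'' C''
  have : Module.Finite R' C'' := IsIntegralClosure.finite R' K' L'' C''
  let c0 := Module.Free.chooseBasis R' C''
  have hloc' : IsLocalization (Algebra.algebraMapSubmonoid C'' R'⁰) L'' :=
    IsIntegralClosure.isLocalization R' K' L'' C''
  let cK : Module.Basis _ K' L'' := c0.localizationLocalization K' R'⁰ L''
  have hcK : ∀ l, cK l = algebraMap C'' L'' (c0 l) :=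
    fun l => Module.Basis.localizationLocalization_apply K' R'⁰ L'' c0 l
  have hcint : ∀ l, IsIntegral R' (cK l) := fun l => by
    rw [hcK]; exact (IsIntegralClosure.isIntegral_iff (A := C'') (R := R') (B := L'')).mpr ⟨c0 l, rfl⟩
  have hbspan : ∀ j, algebraMap L L'' (b j) ∈ Submodule.span R' (Set.range cK) := by
    intro j
    have hint : IsIntegral R' (algebraMap L L'' (b j)) := by
      obtain ⟨p, hp, q, hq, hq0⟩ := hbint j
      refine ⟨p, hp, ?_⟩
      have h1 : eval₂ (algebraMap R' L'') (algebraMap L L'' (b j)) p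
          = eval₂ (algebraMap K' L'') (algebraMap L L'' (b j)) (p.map (algebraMap R' K')) := by
        rw [Polynomial.eval₂_map, ← IsScalarTower.algebraMap_eq R' K' L'']
      rw [h1, ← hq, Polynomial.eval₂_map, ← IsScalarTower.algebraMap_eq K K' L'',
        IsScalarTower.algebraMap_eq K L L'', ← Polynomial.hom_eval₂]
      rw [Polynomial.aeval_def] at hq0
      rw [hq0, map_zero]
    obtain ⟨y, hy⟩ := (IsIntegralClosure.isIntegral_iff (A := C'') (R := R') (B := L'')).mp hint
    rw [← hy, ← c0.sum_repr y, map_sum]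
    refine Submodule.sum_mem _ fun l _ => ?_
    rw [Algebra.smul_def, map_mul, ← IsScalarTower.algebraMap_apply R' C'' L'', ← hcK,
      ← Algebra.smul_def]
    exact Submodule.smul_mem _ _ (Submodule.subset_span ⟨l, rfl⟩)
  obtain ⟨w, δ, hδ, hwδ⟩ :=
    Fermat.Agent.Lib.UnitDiscBC.exists_mul_discr_eq_pow hgen b hbint cK hcint hbspan d hd
  have hδu : IsUnit δ := isUnit_of_dvd_unit ⟨w, by rw [mul_comm]; exact hwδ.symm⟩ (hdu.pow _)
  let e : Module.Free.ChooseBasisIndex R' C'' ≃ Fin (Module.finrank K' L'') :=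
    Fintype.equivFinOfCardEq (Module.finrank_eq_card_basis cK).symm
  refine ⟨cK ∘ e.symm, fun l => hcint _, δ, hδu, ?_⟩
  rw [← hδ, ← Algebra.discr_reindex K' cK e, Algebra.discr_def]

end abstract

section semi

variable {R0 R' K' L'' K L : Type*}
  [CommRing R0] [IsIntegrallyClosed R0]
  [CommRing R'] [IsDomain R'] [IsPrincipalIdealRing R'] [Algebra R0 R']
  [Field K'] [Algebra R0 K'] [IsFractionRing R0 K'] [Algebra R' K'] [IsScalarTower R0 R' K']
  [IsFractionRing R' K']
  [Field L''] [Algebra K' L''] [Algebra R0 L''] [IsScalarTower R0 K' L'']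
  [Algebra R' L''] [IsScalarTower R' K' L'']
  [Field K] [Field L] [Algebra K L]
  [Algebra K K'] [Algebra L L''] [Algebra K L''] [IsScalarTower K L L''] [IsScalarTower K K' L'']
  [FiniteDimensional K' L''] [Algebra.IsSeparable K' L'']
  [FiniteDimensional K L] [Algebra.IsSeparable K L]

/-- **Semi-abstract form.**  `R0` an integrally closed domain with fraction field `K'`, `P` a prime
of `R0` whose localisation `R'` is a PID.  Same hypotheses as `exists_family_isUnit_det`.  Then
`L''` has a family of `[L'' : K']` elements integral over `R0` whose trace discriminant is an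
element of `R0` outside `P`. -/
theorem exists_family_notMem_det (P : Ideal R0) [P.IsPrime] [IsLocalization.AtPrime R' P]
    (hgen : Algebra.adjoin K' (Set.range (algebraMap L L'')) = ⊤)
    {ι : Type*} [Fintype ι] [DecidableEq ι] (b : Module.Basis ι K L)
    (hbint : ∀ j, ∃ p : R'[X], p.Monic ∧ ∃ q : K[X],
      q.map (algebraMap K K') = p.map (algebraMap R' K') ∧ aeval (b j) q = 0)
    (d : R') (hdu : IsUnit d)
    (hd : algebraMap K K' (Algebra.discr K b) = algebraMap R' K' d) :
    ∃ c : Fin (Module.finrank K' L'') → L'', (∀ l, IsIntegral R0 (c l)) ∧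
      ∃ h : R0, h ∉ P ∧ (Algebra.traceMatrix K' c).det = algebraMap R0 K' h := by
  classical
  obtain ⟨c, hc, δ, hδu, hδ⟩ := exists_family_isUnit_det hgen b hbint d hdu hd
  have tower : IsScalarTower R0 R' L'' := IsScalarTower.of_algebraMap_eq fun x => by
    rw [IsScalarTower.algebraMap_apply R0 K' L'', IsScalarTower.algebraMap_apply R0 R' K',
      ← IsScalarTower.algebraMap_apply R' K' L'']
  choose s hs using fun l =>
    IsIntegral.exists_multiple_integral_of_isLocalization P.primeCompl (c l) (hc l)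
  let σ : Fin (Module.finrank K' L'') → K' := fun l => algebraMap R0 K' (s l)
  let c' : Fin (Module.finrank K' L'') → L'' := fun l => (s l : R0) • c l
  have hc' : c' = ((Matrix.diagonal σ).map (algebraMap K' L'')).mulVec c := by
    funext l
    simp only [c', σ, Matrix.mulVec, dotProduct, Matrix.map_apply, Matrix.diagonal_apply]
    rw [Finset.sum_eq_single l]
    · simp only [if_true, Algebra.smul_def, IsScalarTower.algebraMap_apply R0 K' L'']
    · intro m _ hm
      rw [if_neg (Ne.symm hm), map_zero, zero_mul]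
    · intro hl; exact absurd (Finset.mem_univ l) hl
  have hdisc : (Algebra.traceMatrix K' c').det
      = (∏ l, σ l) ^ 2 * algebraMap R' K' δ := by
    rw [← hδ, ← Algebra.discr_def, ← Algebra.discr_def, hc', Algebra.discr_of_matrix_mulVec,
      Matrix.det_diagonal]
  have hint : IsIntegral R0 (Algebra.traceMatrix K' c').det := by
    refine IsIntegral.det fun i j => ?_
    rw [Algebra.traceMatrix_apply, Algebra.traceForm_apply]
    exact Algebra.isIntegral_trace ((hs i).mul (hs j))
  obtain ⟨h, hh⟩ := IsIntegrallyClosed.isIntegral_iff.mp hint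
  refine ⟨c', hs, h, ?_, hh.symm⟩
  intro hP
  have hunit : IsUnit (algebraMap R0 R' h) := by
    have : algebraMap R0 R' h = (∏ l, algebraMap R0 R' (s l)) ^ 2 * δ := by
      apply IsFractionRing.injective R' K'
      rw [← IsScalarTower.algebraMap_apply R0 R' K', hh, hdisc, map_mul, map_pow, map_prod]
      congr 2
      refine Finset.prod_congr rfl fun l _ => ?_
      rw [← IsScalarTower.algebraMap_apply R0 R' K']
    rw [this]
    refine IsUnit.mul (IsUnit.pow _ ?_) hδu
    rw [← map_prod]
    have := IsLocalization.map_units R' (∏ l, s l)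
    rwa [Submonoid.coe_finsetProd] at this
  exact ((IsLocalization.AtPrime.isUnit_to_map_iff R' P h).mp hunit) hP

end semi

section localRing

variable {O : Type*} [CommRing O] [IsDomain O] [IsDiscreteValuationRing O]

/-- `(π)` is a prime ideal of `O[X]`. -/
theorem span_C_isPrime {π : O} (hπ : Irreducible π) : (Ideal.span {C π} : Ideal O[X]).IsPrime := by
  rw [Ideal.span_singleton_prime (by simpa using hπ.ne_zero)]
  exact Polynomial.prime_C_iff.mpr hπ.prime

/-- membership in `(π) ⊆ O[X]` is vanishing modulo `π`. -/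
theorem mem_span_C_iff {π : O} (hπ : Irreducible π) (f : O[X]) :
    f ∈ (Ideal.span {C π} : Ideal O[X]) ↔ f.map (IsLocalRing.residue O) = 0 := by
  have hmax : IsLocalRing.maximalIdeal O = Ideal.span {π} :=
    (IsDiscreteValuationRing.irreducible_iff_uniformizer π).mp hπ
  rw [Ideal.mem_span_singleton, Polynomial.C_dvd_iff_dvd_coeff, Polynomial.ext_iff]
  refine forall_congr' fun i => ?_
  rw [Polynomial.coeff_map, Polynomial.coeff_zero, IsLocalRing.residue_eq_zero_iff, hmax,
    Ideal.mem_span_singleton]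

variable (R' : Type*) [CommRing R'] [IsDomain R'] [Algebra O[X] R']

/-- The localisation of `O[X]` at `(π)` is a PID. -/
theorem isPrincipalIdealRing_of_atPrime {π : O} (P : Ideal O[X]) [P.IsPrime]
    (hP : P = Ideal.span {C π}) [IsLocalization.AtPrime R' P] : IsPrincipalIdealRing R' := by
  have hloc : IsLocalRing R' := IsLocalization.AtPrime.isLocalRing R' P
  have hnoeth : IsNoetherianRing R' := IsLocalization.isNoetherianRing P.primeCompl R' inferInstance
  have hmax := IsLocalization.AtPrime.map_eq_maximalIdeal P R'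
  have hprinc : (IsLocalRing.maximalIdeal R').IsPrincipal := by
    refine ⟨⟨algebraMap O[X] R' (C π), ?_⟩⟩
    rw [← hmax, hP, Ideal.map_span, Set.image_singleton]
  exact ((tfae_of_isNoetherianRing_of_isLocalRing_of_isDomain R').out 4 0).mp hprinc

omit [IsDomain R'] in
/-- **Units of `O[X]_(π)` through the residue field.**  If `A / D` is not constant modulo `π`
and `jR = A / D` in `R' = O[X]_(π)`, then `f(jR)` is a unit of `R'` for every `f ∈ O[X]` which
is nonzero modulo `π`. -/
theorem isUnit_eval₂_of_notMem {π : O} (hπ : Irreducible π) (P : Ideal O[X]) [P.IsPrime]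
    (hP : P = Ideal.span {C π}) [IsLocalization.AtPrime R' P]
    (A D : O[X]) (hred : ∀ a b : O, C π ∣ C a * A - C b * D → π ∣ a ∧ π ∣ b)
    (jR : R') (hjR : jR * algebraMap O[X] R' D = algebraMap O[X] R' A)
    (f : O[X]) (hf : f ∉ P) :
    IsUnit (eval₂ ((algebraMap O[X] R').comp C) jR f) := by
  have hloc : IsLocalRing R' := IsLocalization.AtPrime.isLocalRing R' P
  let k := IsLocalRing.ResidueField O
  let res : O →+* k := IsLocalRing.residue O
  let g : O[X] →+* RatFunc k :=
    (algebraMap k[X] (RatFunc k)).comp (Polynomial.mapRingHom res)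
  have hg0 : ∀ y : O[X], g y = 0 ↔ y ∈ P := by
    intro y
    rw [hP, mem_span_C_iff hπ]
    simp only [g, RingHom.comp_apply, Polynomial.coe_mapRingHom]
    rw [map_eq_zero_iff _ (IsFractionRing.injective k[X] (RatFunc k))]
  have hgu : ∀ y : P.primeCompl, IsUnit (g y) := fun y =>
    Ne.isUnit fun h => y.2 ((hg0 _).mp h)
  let ρ : R' →+* RatFunc k := IsLocalization.lift hgu
  have hρ : ∀ x : O[X], ρ (algebraMap O[X] R' x) = g x := fun x => IsLocalization.lift_eq hgu x
  -- the unit criterion
  have hcrit : ∀ x : R', ρ x ≠ 0 → IsUnit x := by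
    intro x hx
    by_contra hnu
    have hmem : x ∈ IsLocalRing.maximalIdeal R' := (IsLocalRing.mem_maximalIdeal x).mpr hnu
    rw [← IsLocalization.AtPrime.map_eq_maximalIdeal P R', hP, Ideal.map_span,
      Set.image_singleton, Ideal.mem_span_singleton'] at hmem
    obtain ⟨y, rfl⟩ := hmem
    apply hx
    rw [map_mul, hρ, (hg0 _).mpr (by rw [hP]; exact Ideal.mem_span_singleton_self _), mul_zero]
  apply hcrit
  -- `r = A / D` modulo `π`
  set r : RatFunc k := ρ jR with hr
  have hrel : r * g D = g A := by rw [hr, ← hρ, ← hρ, ← map_mul, hjR]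
  have hDP : D ∉ P := by
    intro hD
    have : C π ∣ C (0 : O) * A - C (1 : O) * D := by
      rw [hP, Ideal.mem_span_singleton] at hD
      simpa using hD
    exact hπ.not_isUnit (isUnit_of_dvd_one (hred 0 1 this).2)
  have hrC : ¬ ∃ c, r = RatFunc.C c := by
    rintro ⟨c, hc⟩
    obtain ⟨c0, rfl⟩ := IsLocalRing.residue_surjective c
    have h0 : g (C 1 * A - C c0 * D) = 0 := by
      have hgc : g (C c0) = RatFunc.C (IsLocalRing.residue O c0) := by
        simp only [g, res, RingHom.comp_apply, Polynomial.coe_mapRingHom, Polynomial.map_C]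
        rfl
      rw [map_sub, map_mul, map_mul, hgc, ← hc, ← hrel]
      simp
    have : C π ∣ C (1 : O) * A - C c0 * D := by
      have := (hg0 _).mp h0
      rwa [hP, Ideal.mem_span_singleton] at this
    exact hπ.not_isUnit (isUnit_of_dvd_one (hred 1 c0 this).1)
  have htr : Transcendental k r := RatFunc.transcendental_of_ne_C r hrC
  have hcomp : ρ.comp ((algebraMap O[X] R').comp C) = (algebraMap k (RatFunc k)).comp res := by
    ext a
    simp only [RingHom.comp_apply]
    rw [hρ]
    simp only [g, res, RingHom.comp_apply, Polynomial.coe_mapRingHom, Polynomial.map_C]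
    rfl
  rw [Polynomial.hom_eval₂, hcomp, ← Polynomial.eval₂_map, ← hr, ← Polynomial.aeval_def]
  intro h0
  have hzero : f.map res = 0 := by
    by_contra hne
    exact htr ⟨f.map res, hne, h0⟩
  exact hf (by rw [hP]; exact (mem_span_C_iff hπ f).mpr hzero)

end localRing

section fields

/-- If `F` is spanned over `K` by a finite family `b` and `L' = F[u]` with `u ∈ K'`, then `L'` is
spanned over `K'` by the image of `b`. -/
theorem span_eq_top_of_adjoin {K F K' L' ι : Type*} [Field K] [Field F] [Algebra K F]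
    [Field K'] [Field L'] [Algebra K' L'] [Algebra F L'] [Algebra K K'] [Algebra K L']
    [IsScalarTower K F L'] [IsScalarTower K K' L']
    (b : ι → F) (hb : Submodule.span K (Set.range b) = ⊤)
    (u : L') (hu : u ∈ (algebraMap K' L').range) (hgen : Algebra.adjoin F {u} = ⊤) :
    Submodule.span K' (Set.range fun i => algebraMap F L' (b i)) = ⊤ := by
  set S := Submodule.span K' (Set.range fun i => algebraMap F L' (b i)) with hS
  have hF : ∀ x : F, algebraMap F L' x ∈ S := by
    intro x
    have hx : x ∈ Submodule.span K (Set.range b) := hb ▸ Submodule.mem_top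
    induction hx using Submodule.span_induction with
    | mem x hx =>
      obtain ⟨i, rfl⟩ := hx
      exact Submodule.subset_span ⟨i, rfl⟩
    | zero => rw [map_zero]; exact S.zero_mem
    | add x y _ _ hx hy => rw [map_add]; exact S.add_mem hx hy
    | smul a x _ hx =>
      rw [Algebra.smul_def, map_mul, ← IsScalarTower.algebraMap_apply K F L',
        IsScalarTower.algebraMap_apply K K' L', ← Algebra.smul_def]
      exact S.smul_mem _ hx
  have hmul : ∀ x ∈ S, ∀ y ∈ S, x * y ∈ S := by
    intro x hx y hy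
    have h1 : x * y ∈ S * S := Submodule.mul_mem_mul hx hy
    have h2 : S * S ≤ S := by
      rw [hS, Submodule.span_mul_span]
      refine Submodule.span_le.mpr ?_
      rintro _ ⟨_, ⟨i, rfl⟩, _, ⟨k, rfl⟩, rfl⟩
      simp only
      rw [← map_mul]
      exact hF _
    exact h2 h1
  have key : ∀ x ∈ Algebra.adjoin F {u}, x ∈ S := by
    intro x hx
    induction hx using Algebra.adjoin_induction with
    | mem x hx =>
      obtain rfl : x = u := hx
      obtain ⟨a, rfl⟩ := hu
      have h1 : algebraMap K' L' a = a • algebraMap F L' 1 := by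
        rw [map_one, Algebra.smul_def, mul_one]
      rw [h1]
      exact S.smul_mem _ (hF 1)
    | algebraMap r => exact hF r
    | add x y _ _ hx hy => exact S.add_mem hx hy
    | mul x y _ _ hx hy => exact hmul x hx y hy
  rw [eq_top_iff]
  intro x _
  exact key x (hgen ▸ Algebra.mem_top)

variable {O E F L' : Type*} [CommRing O] [IsDomain O] [IsDiscreteValuationRing O]
  [Field E] [CharZero E] [Algebra O E] [IsFractionRing O E]
  [Field F] [Algebra E F] [Algebra O F] [IsScalarTower O E F]
  [Field L'] [Algebra E L'] [Algebra O L'] [IsScalarTower O E L']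
  [Algebra F L'] [IsScalarTower E F L']

omit [IsDomain O] [IsDiscreteValuationRing O] [CharZero E] [IsFractionRing O E] [Algebra O F]
  [IsScalarTower O E F] in
/-- `u` is transcendental as soon as `j = A(u) / D(u)` is. -/
theorem transcendental_of_rel (j : F) (hj : Transcendental E j) (u : L') (A D : O[X])
    (hD : aeval u D ≠ 0) (hrel : aeval u A = algebraMap F L' j * aeval u D) :
    Transcendental E u := by
  intro halg
  apply hj
  have hle : Algebra.adjoin E {u} ≤ integralClosure E L' :=
    Algebra.adjoin_le (by rw [Set.singleton_subset_iff]; exact halg.isIntegral)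
  have hmem : ∀ f : O[X], IsAlgebraic E (aeval u f) := fun f => by
    have h1 : aeval u f = aeval u (f.map (algebraMap O E)) :=
      (Polynomial.aeval_map_algebraMap E u f).symm
    rw [h1]
    exact IsIntegral.isAlgebraic (hle (Polynomial.aeval_mem_adjoin_singleton E u))
  have h1 : algebraMap F L' j = aeval u A * (aeval u D)⁻¹ := by
    rw [hrel, mul_assoc, mul_inv_cancel₀ hD, mul_one]
  have h2 : IsAlgebraic E (algebraMap F L' j) := by
    rw [h1]; exact (hmem A).mul (hmem D).inv
  exact (isAlgebraic_algHom_iff (IsScalarTower.toAlgHom E F L') (algebraMap F L').injective).mp h2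

open IntermediateField in
/-- **Base change of hypothesis (i).**  `F / E(j)` Gauss-unramified (trace-discriminant shape of
`Model.GaussUnram`), `L' = F[u]`, `A(u) = j * D(u)` with `A / D` not constant modulo `π`.  Then `u`
is transcendental over `E`, `L' / E(u)` is finite, and `L' / E(u)` is Gauss-unramified. -/
theorem gaussUnram_adjoin (π : O) (hπ : Irreducible π) (j : F) (hj : Transcendental E j)
    [FiniteDimensional E⟮j⟯ F]
    (hi : ∃ b : Fin (Module.finrank E⟮j⟯ F) → F,
      (∀ i, IsIntegral (Algebra.adjoin O {j}) (b i)) ∧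
      ∃ d : F, d ∈ Algebra.adjoin O {j} ∧
        ((Algebra.traceMatrix E⟮j⟯ b).det : F) = d ∧
        ∀ c : F, c ∈ Algebra.adjoin O {j} → d ≠ algebraMap O F π * c)
    (u : L') (hgen : Algebra.adjoin F {u} = ⊤)
    (A D : O[X]) (hD : aeval u D ≠ 0) (hrel : aeval u A = algebraMap F L' j * aeval u D)
    (hred : ∀ a b : O, C π ∣ C a * A - C b * D → π ∣ a ∧ π ∣ b) :
    Transcendental E u ∧ FiniteDimensional E⟮u⟯ L' ∧
      ∃ b : Fin (Module.finrank E⟮u⟯ L') → L',
        (∀ i, IsIntegral (Algebra.adjoin O {u}) (b i)) ∧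
        ∃ d : L', d ∈ Algebra.adjoin O {u} ∧
          ((Algebra.traceMatrix E⟮u⟯ b).det : L') = d ∧
          ∀ c : L', c ∈ Algebra.adjoin O {u} → d ≠ algebraMap O L' π * c := by
  classical
  have hu : Transcendental E u := transcendental_of_rel j hj u A D hD hrel
  have hOE : Function.Injective (algebraMap O E) := IsFractionRing.injective O E
  have huO : Transcendental O u := hu.restrictScalars hOE
  have towerOFL : IsScalarTower O F L' := IsScalarTower.of_algebraMap_eq fun x => by
    rw [IsScalarTower.algebraMap_apply O E L', IsScalarTower.algebraMap_apply E F L',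
      ← IsScalarTower.algebraMap_apply O E F]
  -- the ring hom `O[X] → E(u)`
  have hmemu : ∀ f : O[X], aeval u f ∈ E⟮u⟯ := fun f => by
    have h1 : aeval u f = aeval u (f.map (algebraMap O E)) :=
      (Polynomial.aeval_map_algebraMap E u f).symm
    rw [h1]
    exact IntermediateField.algebra_adjoin_le_adjoin E {u}
      (Polynomial.aeval_mem_adjoin_singleton E u)
  let φ0 : O[X] →+* E⟮u⟯ := RingHom.codRestrict (aeval u : O[X] →ₐ[O] L').toRingHom E⟮u⟯ hmemu
  have hφinj : Function.Injective φ0 := by
    intro f g hfg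
    have : aeval u f = aeval u g := congrArg Subtype.val hfg
    exact (transcendental_iff_injective.mp huO) this
  let algR0Ku : Algebra O[X] E⟮u⟯ := φ0.toAlgebra
  let algR0L : Algebra O[X] L' := (aeval u : O[X] →ₐ[O] L').toRingHom.toAlgebra
  have tower0 : IsScalarTower O[X] E⟮u⟯ L' := IsScalarTower.of_algebraMap_eq fun x => rfl
  have hfaith : FaithfulSMul O[X] E⟮u⟯ := (faithfulSMul_iff_algebraMap_injective _ _).mpr hφinj
  have hfrac0 : IsFractionRing O[X] E⟮u⟯ := by
    refine IsFractionRing.of_field O[X] E⟮u⟯ fun z => ?_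
    obtain ⟨r, s, hz⟩ := (IntermediateField.mem_adjoin_simple_iff E z.1).mp z.2
    obtain ⟨a, ha, hr⟩ := IsLocalization.integerNormalization_spec (nonZeroDivisors O) r
    obtain ⟨b, hb, hs⟩ := IsLocalization.integerNormalization_spec (nonZeroDivisors O) s
    set r0 := IsLocalization.integerNormalization (nonZeroDivisors O) r
    set s0 := IsLocalization.integerNormalization (nonZeroDivisors O) s
    have key : ∀ (a : O) (r : E[X]) (r0 : O[X]), r0.map (algebraMap O E) = a • r →
        aeval u r0 = algebraMap O L' a * aeval u r := by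
      intro a r r0 h
      rw [← Polynomial.aeval_map_algebraMap E u r0, h, ← algebraMap_smul E a r, map_smul,
        Algebra.smul_def, ← IsScalarTower.algebraMap_apply O E L']
    have hinjOL : Function.Injective (algebraMap O L') := by
      rw [IsScalarTower.algebraMap_eq O E L']
      exact (algebraMap E L').injective.comp hOE
    have ha0 : algebraMap O L' a ≠ 0 :=
      (map_ne_zero_iff _ hinjOL).mpr (nonZeroDivisors.ne_zero ha)
    have hb0 : algebraMap O L' b ≠ 0 :=
      (map_ne_zero_iff _ hinjOL).mpr (nonZeroDivisors.ne_zero hb)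
    refine ⟨C b * r0, C a * s0, Subtype.ext ?_⟩
    have e1 : ((algebraMap O[X] E⟮u⟯ (C b * r0) / algebraMap O[X] E⟮u⟯ (C a * s0) : E⟮u⟯) : L')
        = aeval u (C b * r0) / aeval u (C a * s0) := rfl
    rw [e1, hz, map_mul, map_mul, Polynomial.aeval_C, Polynomial.aeval_C, key a r r0 hr,
      key b s s0 hs, mul_left_comm (algebraMap O L' a), mul_div_mul_left _ _ hb0,
      mul_div_mul_left _ _ ha0]
  -- the localisation `R' = O[X]_(π)`
  let P : Ideal O[X] := Ideal.span {C π}
  have hPprime : P.IsPrime := span_C_isPrime hπ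
  let R' := Localization.AtPrime P
  have hPID : IsPrincipalIdealRing R' := isPrincipalIdealRing_of_atPrime R' P rfl
  have hgu : ∀ y : P.primeCompl, IsUnit (φ0 y) := fun y => Ne.isUnit fun h => y.2 (by
    have h0 : (y : O[X]) = 0 := hφinj (by rw [h, map_zero])
    rw [h0]; exact P.zero_mem)
  let algR'Ku : Algebra R' E⟮u⟯ := (IsLocalization.lift hgu).toAlgebra
  have tower1 : IsScalarTower O[X] R' E⟮u⟯ :=
    IsScalarTower.of_algebraMap_eq fun x => (IsLocalization.lift_eq hgu x).symm
  have hfrac1 : IsFractionRing R' E⟮u⟯ :=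
    IsFractionRing.isFractionRing_of_isDomain_of_isLocalization P.primeCompl R' E⟮u⟯
  let algR'L : Algebra R' L' := ((algebraMap E⟮u⟯ L').comp (algebraMap R' E⟮u⟯)).toAlgebra
  have tower2 : IsScalarTower R' E⟮u⟯ L' := IsScalarTower.of_algebraMap_eq fun x => rfl
  have tower5 : IsScalarTower O[X] R' L' := IsScalarTower.of_algebraMap_eq fun x => by
    rw [IsScalarTower.algebraMap_apply O[X] E⟮u⟯ L', IsScalarTower.algebraMap_apply O[X] R' E⟮u⟯,
      ← IsScalarTower.algebraMap_apply R' E⟮u⟯ L']
  -- the element `jR = A / D` of `R'`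
  have hDP : D ∈ P.primeCompl := by
    intro hDm
    have : C π ∣ C (0 : O) * A - C (1 : O) * D := by
      have := Ideal.mem_span_singleton.mp hDm
      simpa using this
    exact hπ.not_isUnit (isUnit_of_dvd_one (hred 0 1 this).2)
  let jR : R' := IsLocalization.mk' R' A (⟨D, hDP⟩ : P.primeCompl)
  have hjR : jR * algebraMap O[X] R' D = algebraMap O[X] R' A :=
    IsLocalization.mk'_spec R' A ⟨D, hDP⟩
  have hjRL : algebraMap R' L' jR = algebraMap F L' j := by
    have h1 := congrArg (algebraMap R' L') hjR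
    rw [map_mul, ← IsScalarTower.algebraMap_apply O[X] R' L',
      ← IsScalarTower.algebraMap_apply O[X] R' L'] at h1
    have h2 : algebraMap R' L' jR * aeval u D = aeval u A := h1
    exact mul_right_cancel₀ hD (h2.trans hrel)
  let θ : O[X] →+* R' := Polynomial.eval₂RingHom ((algebraMap O[X] R').comp C) jR
  have hθunit : ∀ f : O[X], f ∉ P → IsUnit (θ f) := fun f hf =>
    isUnit_eval₂_of_notMem R' hπ P rfl A D hred jR hjR f hf
  -- the side of `E(j)`
  let jK : E⟮j⟯ := IntermediateField.AdjoinSimple.gen E j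
  let θK : O[X] →+* E⟮j⟯ :=
    Polynomial.eval₂RingHom ((algebraMap E E⟮j⟯).comp (algebraMap O E)) jK
  have hθKhom : (algebraMap E⟮j⟯ F).comp θK = (aeval j : O[X] →ₐ[O] F).toRingHom := by
    apply Polynomial.ringHom_ext
    · intro a
      simp only [θK, RingHom.comp_apply, Polynomial.coe_eval₂RingHom, Polynomial.eval₂_C,
        AlgHom.toRingHom_eq_coe, RingHom.coe_coe, Polynomial.aeval_C]
      rw [← IsScalarTower.algebraMap_apply E E⟮j⟯ F, ← IsScalarTower.algebraMap_apply O E F]
    · simp only [θK, jK, RingHom.comp_apply, Polynomial.coe_eval₂RingHom, Polynomial.eval₂_X,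
        AlgHom.toRingHom_eq_coe, RingHom.coe_coe, Polynomial.aeval_X]
      rfl
  have hθK : ∀ f : O[X], (θK f : F) = aeval j f := fun f => congrArg (fun h => h f) hθKhom
  have hKjKu : ∀ x : E⟮j⟯, ((algebraMap F L').comp (algebraMap E⟮j⟯ F)) x ∈ E⟮u⟯ := by
    intro x
    have hj' : algebraMap F L' j ∈ E⟮u⟯ := by
      have : algebraMap F L' j = aeval u A / aeval u D := by
        rw [hrel, mul_div_cancel_right₀ _ hD]
      rw [this]; exact div_mem (hmemu A) (hmemu D)
    have hle : (E⟮j⟯).map (IsScalarTower.toAlgHom E F L') ≤ E⟮u⟯ := by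
      rw [IntermediateField.adjoin_map, Set.image_singleton]
      exact IntermediateField.adjoin_simple_le_iff.mpr hj'
    exact hle ⟨x, x.2, rfl⟩
  let ψ : E⟮j⟯ →+* E⟮u⟯ :=
    RingHom.codRestrict ((algebraMap F L').comp (algebraMap E⟮j⟯ F)) E⟮u⟯ hKjKu
  let algKjKu : Algebra E⟮j⟯ E⟮u⟯ := ψ.toAlgebra
  have tower4 : IsScalarTower E⟮j⟯ E⟮u⟯ L' := IsScalarTower.of_algebraMap_eq fun x => rfl
  have hcompat : (algebraMap E⟮j⟯ E⟮u⟯).comp θK = (algebraMap R' E⟮u⟯).comp θ := by
    apply Polynomial.ringHom_ext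
    · intro a
      apply Subtype.ext
      have l1 : (((algebraMap E⟮j⟯ E⟮u⟯).comp θK) (C a) : L') = algebraMap O L' a := by
        have : (((algebraMap E⟮j⟯ E⟮u⟯).comp θK) (C a) : L') = algebraMap F L' (θK (C a) : F) := rfl
        rw [this, hθK, Polynomial.aeval_C, ← IsScalarTower.algebraMap_apply O F L']
      have l2 : (((algebraMap R' E⟮u⟯).comp θ) (C a) : L') = algebraMap O L' a := by
        have : (((algebraMap R' E⟮u⟯).comp θ) (C a) : L') = algebraMap R' L' (θ (C a)) := rfl
        rw [this]
        simp only [θ, Polynomial.coe_eval₂RingHom, Polynomial.eval₂_C, RingHom.comp_apply]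
        rw [← IsScalarTower.algebraMap_apply O[X] R' L']
        exact Polynomial.aeval_C u a
      rw [l1, l2]
    · apply Subtype.ext
      have l1 : (((algebraMap E⟮j⟯ E⟮u⟯).comp θK) X : L') = algebraMap F L' j := by
        have : (((algebraMap E⟮j⟯ E⟮u⟯).comp θK) X : L') = algebraMap F L' (θK X : F) := rfl
        rw [this, hθK, Polynomial.aeval_X]
      have l2 : (((algebraMap R' E⟮u⟯).comp θ) X : L') = algebraMap F L' j := by
        have : (((algebraMap R' E⟮u⟯).comp θ) X : L') = algebraMap R' L' (θ X) := rfl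
        rw [this]
        simp only [θ, Polynomial.coe_eval₂RingHom, Polynomial.eval₂_X]
        exact hjRL
      rw [l1, l2]
  -- the basis
  obtain ⟨b, hbint0, d, hdmem, hdet, hdne⟩ := hi
  have hd0 : d ≠ 0 := fun h => hdne 0 (Subalgebra.zero_mem _) (by rw [h, mul_zero])
  have hli : LinearIndependent E⟮j⟯ b := by
    by_contra hli
    have h0 := Algebra.discr_zero_of_not_linearIndependent E⟮j⟯ hli
    rw [Algebra.discr_def] at h0
    rw [h0] at hdet
    exact hd0 hdet.symm
  have hpos : 0 < Module.finrank E⟮j⟯ F := Module.finrank_pos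
  have : Nonempty (Fin (Module.finrank E⟮j⟯ F)) := ⟨⟨0, hpos⟩⟩
  let bb : Module.Basis (Fin (Module.finrank E⟮j⟯ F)) E⟮j⟯ F :=
    basisOfLinearIndependentOfCardEqFinrank hli (by simp)
  have hbb : ⇑bb = b := coe_basisOfLinearIndependentOfCardEqFinrank hli _
  obtain ⟨f0, hf0⟩ : ∃ f0 : O[X], aeval j f0 = d := by
    rw [Algebra.adjoin_singleton_eq_range_aeval] at hdmem
    exact hdmem
  have hf0P : f0 ∉ P := by
    intro hf
    obtain ⟨f1, rfl⟩ := Ideal.mem_span_singleton.mp hf
    apply hdne (aeval j f1) (Polynomial.aeval_mem_adjoin_singleton O j)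
    rw [← hf0, map_mul, Polynomial.aeval_C]
  have hd : algebraMap E⟮j⟯ E⟮u⟯ (Algebra.discr E⟮j⟯ bb) = algebraMap R' E⟮u⟯ (θ f0) := by
    have h1 : Algebra.discr E⟮j⟯ bb = θK f0 := by
      apply Subtype.ext
      rw [hθK, hf0, ← hdet, Algebra.discr_def, hbb]
    rw [h1]
    exact congrArg (fun h => h f0) hcompat
  have hbint : ∀ i, ∃ p : R'[X], p.Monic ∧ ∃ q : E⟮j⟯[X],
      q.map (algebraMap E⟮j⟯ E⟮u⟯) = p.map (algebraMap R' E⟮u⟯) ∧ aeval (bb i) q = 0 := by
    intro i
    obtain ⟨p0, hp0, hp0'⟩ := hbint0 i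
    let τ : O[X] →+* Algebra.adjoin O {j} :=
      ((aeval j : O[X] →ₐ[O] F).codRestrict (Algebra.adjoin O {j})
        (fun _ => Polynomial.aeval_mem_adjoin_singleton O j)).toRingHom
    have hτ : Function.Surjective τ := by
      rintro ⟨y, hy⟩
      rw [Algebra.adjoin_singleton_eq_range_aeval] at hy
      obtain ⟨f, rfl⟩ := hy
      exact ⟨f, Subtype.ext rfl⟩
    obtain ⟨P1, hP1, -, hP1m⟩ := Polynomial.lifts_and_natDegree_eq_and_monic
      ((Polynomial.mem_lifts _).mpr (Polynomial.map_surjective τ hτ p0)) hp0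
    refine ⟨P1.map θ, hP1m.map θ, P1.map θK, ?_, ?_⟩
    · rw [Polynomial.map_map, Polynomial.map_map, hcompat]
    · rw [hbb, Polynomial.aeval_def, Polynomial.eval₂_map]
      rw [← hP1, Polynomial.eval₂_map] at hp0'
      have hc : (algebraMap E⟮j⟯ F).comp θK = (algebraMap (Algebra.adjoin O {j}) F).comp τ := by
        rw [hθKhom]; rfl
      rw [hc]; exact hp0'
  -- generation and finiteness
  have hspan : Submodule.span E⟮u⟯ (Set.range fun i => algebraMap F L' (bb i)) = ⊤ :=
    span_eq_top_of_adjoin (K := E⟮j⟯) (K' := E⟮u⟯) bb bb.span_eq u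
      ⟨IntermediateField.AdjoinSimple.gen E u, rfl⟩ hgen
  have hfin : FiniteDimensional E⟮u⟯ L' :=
    ⟨⟨Finset.univ.image (fun i => algebraMap F L' (bb i)), by
      rw [Finset.coe_image, Finset.coe_univ, Set.image_univ]; exact hspan⟩⟩
  have hgen' : Algebra.adjoin E⟮u⟯ (Set.range (algebraMap F L')) = ⊤ := by
    have h1 : Submodule.span E⟮u⟯ (Set.range fun i => algebraMap F L' (bb i)) ≤
        Subalgebra.toSubmodule (Algebra.adjoin E⟮u⟯ (Set.range (algebraMap F L'))) :=
      Submodule.span_le.mpr (by rintro _ ⟨i, rfl⟩; exact Algebra.subset_adjoin ⟨bb i, rfl⟩)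
    rw [hspan] at h1
    exact eq_top_iff.mpr fun x _ => h1 Submodule.mem_top
  obtain ⟨c, hc, h, hhP, hh⟩ := exists_family_notMem_det (R0 := O[X]) (R' := R')
    (K' := E⟮u⟯) (L'' := L') (K := E⟮j⟯) (L := F) P hgen' bb hbint (θ f0) (hθunit f0 hf0P) hd
  refine ⟨hu, hfin, c, ?_, aeval u h, Polynomial.aeval_mem_adjoin_singleton O u, ?_, ?_⟩
  · intro l
    obtain ⟨p, hp, hp0⟩ := hc l
    let τu : O[X] →+* Algebra.adjoin O {u} :=
      ((aeval u : O[X] →ₐ[O] L').codRestrict (Algebra.adjoin O {u})
        (fun _ => Polynomial.aeval_mem_adjoin_singleton O u)).toRingHom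
    refine ⟨p.map τu, hp.map τu, ?_⟩
    rw [Polynomial.eval₂_map]
    exact hp0
  · rw [hh]; rfl
  · intro c' hc' heq
    rw [Algebra.adjoin_singleton_eq_range_aeval] at hc'
    obtain ⟨g, rfl⟩ := hc'
    have h1 : aeval u h = aeval u (C π * g) := by
      rw [heq, map_mul, Polynomial.aeval_C]; rfl
    have h2 := transcendental_iff_injective.mp huO h1
    exact hhP (by rw [h2]; exact Ideal.mem_span_singleton.mpr (dvd_mul_right _ _))

omit [IsDomain O] [IsDiscreteValuationRing O] [CharZero E] in
/-- `u` is algebraic over `F` (it is a root of `A - j * D ≠ 0`). -/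
theorem isIntegral_of_rel (j : F) (hj : Transcendental E j) (u : L') (A D : O[X])
    (hD : aeval u D ≠ 0) (hrel : aeval u A = algebraMap F L' j * aeval u D) :
    IsIntegral F u := by
  have towerOFL : IsScalarTower O F L' := IsScalarTower.of_algebraMap_eq fun x => by
    rw [IsScalarTower.algebraMap_apply O E L', IsScalarTower.algebraMap_apply E F L',
      ← IsScalarTower.algebraMap_apply O E F]
  rw [← isAlgebraic_iff_isIntegral]
  refine ⟨A.map (algebraMap O F) - C j * D.map (algebraMap O F), ?_, ?_⟩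
  · intro h0
    have hinj : Function.Injective (algebraMap O F) := by
      rw [IsScalarTower.algebraMap_eq O E F]
      exact (algebraMap E F).injective.comp (IsFractionRing.injective O E)
    have hDne : D ≠ 0 := fun h => hD (by rw [h, map_zero])
    obtain ⟨i, hi⟩ : ∃ i, D.coeff i ≠ 0 := by
      by_contra hcon
      exact hDne (Polynomial.ext fun i => by
        rw [Polynomial.coeff_zero]
        by_contra hi
        exact hcon ⟨i, hi⟩)
    have hcoef := congrArg (fun q => Polynomial.coeff q i) h0
    simp only [Polynomial.coeff_sub, Polynomial.coeff_map, Polynomial.coeff_C_mul,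
      Polynomial.coeff_zero] at hcoef
    have hDi : algebraMap O F (D.coeff i) ≠ 0 := (map_ne_zero_iff _ hinj).mpr hi
    apply hj
    have hjeq : j = algebraMap E F (algebraMap O E (A.coeff i) / algebraMap O E (D.coeff i)) := by
      rw [map_div₀, ← IsScalarTower.algebraMap_apply O E F, ← IsScalarTower.algebraMap_apply O E F,
        eq_div_iff hDi]
      exact (sub_eq_zero.mp hcoef).symm
    rw [hjeq]
    exact isAlgebraic_algebraMap _
  · rw [map_sub, map_mul, Polynomial.aeval_C, Polynomial.aeval_map_algebraMap,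
      Polynomial.aeval_map_algebraMap, hrel, sub_self]

open IntermediateField in
/-- `gaussUnram_adjoin` with the generation hypothesis in field form `F(u) = L'`. -/
theorem gaussUnram_adjoin' (π : O) (hπ : Irreducible π) (j : F) (hj : Transcendental E j)
    [FiniteDimensional E⟮j⟯ F]
    (hi : ∃ b : Fin (Module.finrank E⟮j⟯ F) → F,
      (∀ i, IsIntegral (Algebra.adjoin O {j}) (b i)) ∧
      ∃ d : F, d ∈ Algebra.adjoin O {j} ∧
        ((Algebra.traceMatrix E⟮j⟯ b).det : F) = d ∧
        ∀ c : F, c ∈ Algebra.adjoin O {j} → d ≠ algebraMap O F π * c)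
    (u : L') (hgen : F⟮u⟯ = ⊤)
    (A D : O[X]) (hD : aeval u D ≠ 0) (hrel : aeval u A = algebraMap F L' j * aeval u D)
    (hred : ∀ a b : O, C π ∣ C a * A - C b * D → π ∣ a ∧ π ∣ b) :
    Transcendental E u ∧ FiniteDimensional E⟮u⟯ L' ∧
      ∃ b : Fin (Module.finrank E⟮u⟯ L') → L',
        (∀ i, IsIntegral (Algebra.adjoin O {u}) (b i)) ∧
        ∃ d : L', d ∈ Algebra.adjoin O {u} ∧
          ((Algebra.traceMatrix E⟮u⟯ b).det : L') = d ∧
          ∀ c : L', c ∈ Algebra.adjoin O {u} → d ≠ algebraMap O L' π * c :=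
  gaussUnram_adjoin π hπ j hj hi u (by
    have h := IntermediateField.adjoin_simple_toSubalgebra_of_isAlgebraic
      (isIntegral_of_rel (E := E) j hj u A D hD hrel).isAlgebraic
    rw [← h, hgen, IntermediateField.top_toSubalgebra]) A D hD hrel hred

set_option linter.unusedSimpArgs false in
open IntermediateField in
/-- **Kummer base change** `s ^ e = t - c` (the base change used at a branch point `t = c`):
hypothesis (i) passes from `(F, t)` to `(F[s], s)`, whatever the exponent `e ≥ 1`. -/
theorem gaussUnram_adjoin_pow (π : O) (hπ : Irreducible π) (t : F) (ht : Transcendental E t)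
    [FiniteDimensional E⟮t⟯ F]
    (hi : ∃ b : Fin (Module.finrank E⟮t⟯ F) → F,
      (∀ i, IsIntegral (Algebra.adjoin O {t}) (b i)) ∧
      ∃ d : F, d ∈ Algebra.adjoin O {t} ∧
        ((Algebra.traceMatrix E⟮t⟯ b).det : F) = d ∧
        ∀ c : F, c ∈ Algebra.adjoin O {t} → d ≠ algebraMap O F π * c)
    (s : L') (hgen : Algebra.adjoin F {s} = ⊤) (e : ℕ) (he : 0 < e) (c : O)
    (hs : s ^ e = algebraMap F L' t - algebraMap O L' c) :
    Transcendental E s ∧ FiniteDimensional E⟮s⟯ L' ∧
      ∃ b : Fin (Module.finrank E⟮s⟯ L') → L',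
        (∀ i, IsIntegral (Algebra.adjoin O {s}) (b i)) ∧
        ∃ d : L', d ∈ Algebra.adjoin O {s} ∧
          ((Algebra.traceMatrix E⟮s⟯ b).det : L') = d ∧
          ∀ c : L', c ∈ Algebra.adjoin O {s} → d ≠ algebraMap O L' π * c := by
  refine gaussUnram_adjoin π hπ t ht hi s hgen (X ^ e + C c) 1 ?_ ?_ ?_
  · rw [map_one]; exact one_ne_zero
  · rw [map_add, map_pow, Polynomial.aeval_X, Polynomial.aeval_C, map_one, mul_one, hs,
      sub_add_cancel]
  · intro a b h
    rw [Polynomial.C_dvd_iff_dvd_coeff] at h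
    have h1 := h e
    have h0 := h 0
    simp only [Polynomial.coeff_sub, Polynomial.coeff_C_mul, Polynomial.coeff_add,
      Polynomial.coeff_X_pow, Polynomial.coeff_C, Polynomial.coeff_one, if_true, he.ne',
      he.ne, if_false, add_zero, zero_add, mul_one, mul_zero, sub_zero] at h1 h0
    refine ⟨h1, ?_⟩
    have h2 : π ∣ a * c - (a * c - b) := dvd_sub (Dvd.dvd.mul_right h1 c) h0
    rwa [sub_sub_cancel] at h2

omit [IsDomain O] [IsDiscreteValuationRing O] in
/-- The hypothesis `hred` of `gaussUnram_adjoin` for monic `A`, `D` with `deg D < deg A`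
(whatever `π`). -/
theorem hred_of_monic {π : O} {A D : O[X]} (hA : A.Monic) (hDm : D.Monic)
    (hlt : D.natDegree < A.natDegree) (a b : O) (h : C π ∣ C a * A - C b * D) :
    π ∣ a ∧ π ∣ b := by
  rw [Polynomial.C_dvd_iff_dvd_coeff] at h
  have h1 := h A.natDegree
  have h0 := h D.natDegree
  rw [Polynomial.coeff_sub, Polynomial.coeff_C_mul, Polynomial.coeff_C_mul] at h1 h0
  rw [hA.coeff_natDegree, Polynomial.coeff_eq_zero_of_natDegree_lt hlt, mul_one, mul_zero,
    sub_zero] at h1
  rw [hDm.coeff_natDegree, mul_one] at h0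
  refine ⟨h1, ?_⟩
  have h2 : π ∣ a * A.coeff D.natDegree - (a * A.coeff D.natDegree - b) :=
    dvd_sub (Dvd.dvd.mul_right h1 _) h0
  rwa [sub_sub_cancel] at h2

open IntermediateField in
/-- **Literal instance, level 2** (`j = (u + 256)^3 / u^2`, the Hauptmodul `u = Δ(z)/Δ(2z)`). -/
theorem gaussUnram_adjoin_cubic (π : O) (hπ : Irreducible π) (j : F) (hj : Transcendental E j)
    [FiniteDimensional E⟮j⟯ F]
    (hi : ∃ b : Fin (Module.finrank E⟮j⟯ F) → F,
      (∀ i, IsIntegral (Algebra.adjoin O {j}) (b i)) ∧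
      ∃ d : F, d ∈ Algebra.adjoin O {j} ∧
        ((Algebra.traceMatrix E⟮j⟯ b).det : F) = d ∧
        ∀ c : F, c ∈ Algebra.adjoin O {j} → d ≠ algebraMap O F π * c)
    (u : L') (hgen : Algebra.adjoin F {u} = ⊤)
    (hrel : (u + 256) ^ 3 = algebraMap F L' j * u ^ 2) :
    Transcendental E u ∧ FiniteDimensional E⟮u⟯ L' ∧
      ∃ b : Fin (Module.finrank E⟮u⟯ L') → L',
        (∀ i, IsIntegral (Algebra.adjoin O {u}) (b i)) ∧
        ∃ d : L', d ∈ Algebra.adjoin O {u} ∧
          ((Algebra.traceMatrix E⟮u⟯ b).det : L') = d ∧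
          ∀ c : L', c ∈ Algebra.adjoin O {u} → d ≠ algebraMap O L' π * c := by
  have hchar : CharZero L' := charZero_of_injective_algebraMap (algebraMap E L').injective
  have hu0 : u ≠ 0 := by
    rintro rfl
    rw [zero_add, zero_pow (by norm_num), mul_zero] at hrel
    exact absurd hrel (by norm_num)
  refine gaussUnram_adjoin π hπ j hj hi u hgen ((X + C 256) ^ 3) (X ^ 2) ?_ ?_
    (hred_of_monic ?_ ?_ ?_)
  · simpa using hu0
  · have h256 : algebraMap O L' (256 : O) = 256 := map_ofNat (algebraMap O L') 256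
    simpa [h256] using hrel
  · exact (Polynomial.monic_X_add_C _).pow 3
  · exact Polynomial.monic_X_pow 2
  · rw [Polynomial.natDegree_X_pow, Polynomial.natDegree_pow, Polynomial.natDegree_X_add_C]
    norm_num

open IntermediateField in
/-- **Literal instance, level 3** (`j = (u + 27)(u + 243)^3 / u^3`, `u = (η(z)/η(3z))^12`). -/
theorem gaussUnram_adjoin_quartic (π : O) (hπ : Irreducible π) (j : F) (hj : Transcendental E j)
    [FiniteDimensional E⟮j⟯ F]
    (hi : ∃ b : Fin (Module.finrank E⟮j⟯ F) → F,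
      (∀ i, IsIntegral (Algebra.adjoin O {j}) (b i)) ∧
      ∃ d : F, d ∈ Algebra.adjoin O {j} ∧
        ((Algebra.traceMatrix E⟮j⟯ b).det : F) = d ∧
        ∀ c : F, c ∈ Algebra.adjoin O {j} → d ≠ algebraMap O F π * c)
    (u : L') (hgen : Algebra.adjoin F {u} = ⊤)
    (hrel : (u + 27) * (u + 243) ^ 3 = algebraMap F L' j * u ^ 3) :
    Transcendental E u ∧ FiniteDimensional E⟮u⟯ L' ∧
      ∃ b : Fin (Module.finrank E⟮u⟯ L') → L',
        (∀ i, IsIntegral (Algebra.adjoin O {u}) (b i)) ∧
        ∃ d : L', d ∈ Algebra.adjoin O {u} ∧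
          ((Algebra.traceMatrix E⟮u⟯ b).det : L') = d ∧
          ∀ c : L', c ∈ Algebra.adjoin O {u} → d ≠ algebraMap O L' π * c := by
  have hchar : CharZero L' := charZero_of_injective_algebraMap (algebraMap E L').injective
  have hu0 : u ≠ 0 := by
    rintro rfl
    rw [zero_add, zero_add, zero_pow (by norm_num), mul_zero] at hrel
    exact absurd hrel (by norm_num)
  refine gaussUnram_adjoin π hπ j hj hi u hgen ((X + C 27) * (X + C 243) ^ 3) (X ^ 3) ?_ ?_
    (hred_of_monic ?_ ?_ ?_)
  · simpa using hu0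
  · have h27 : algebraMap O L' (27 : O) = 27 := map_ofNat (algebraMap O L') 27
    have h243 : algebraMap O L' (243 : O) = 243 := map_ofNat (algebraMap O L') 243
    simpa [h27, h243] using hrel
  · exact (Polynomial.monic_X_add_C _).mul ((Polynomial.monic_X_add_C _).pow 3)
  · exact Polynomial.monic_X_pow 3
  · rw [Polynomial.natDegree_X_pow, Polynomial.Monic.natDegree_mul (Polynomial.monic_X_add_C _)
      ((Polynomial.monic_X_add_C _).pow 3), Polynomial.natDegree_pow,
      Polynomial.natDegree_X_add_C]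
    norm_num

open IntermediateField in
/-- **Change of parameter inside one field** (`L' = F`): hypothesis (i) for `j` gives (i) for any
`u : F` with `A(u) = j * D(u)`.  (The (G)-brick of the Hauptmodul tower: `F = F_{rN}`, `u = h_r`.) -/
theorem gaussUnram_of_rel (π : O) (hπ : Irreducible π) (j u : F) (hj : Transcendental E j)
    [FiniteDimensional E⟮j⟯ F]
    (hi : ∃ b : Fin (Module.finrank E⟮j⟯ F) → F,
      (∀ i, IsIntegral (Algebra.adjoin O {j}) (b i)) ∧
      ∃ d : F, d ∈ Algebra.adjoin O {j} ∧
        ((Algebra.traceMatrix E⟮j⟯ b).det : F) = d ∧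
        ∀ c : F, c ∈ Algebra.adjoin O {j} → d ≠ algebraMap O F π * c)
    (A D : O[X]) (hD : aeval u D ≠ 0) (hrel : aeval u A = j * aeval u D)
    (hred : ∀ a b : O, C π ∣ C a * A - C b * D → π ∣ a ∧ π ∣ b) :
    Transcendental E u ∧ FiniteDimensional E⟮u⟯ F ∧
      ∃ b : Fin (Module.finrank E⟮u⟯ F) → F,
        (∀ i, IsIntegral (Algebra.adjoin O {u}) (b i)) ∧
        ∃ d : F, d ∈ Algebra.adjoin O {u} ∧
          ((Algebra.traceMatrix E⟮u⟯ b).det : F) = d ∧
          ∀ c : F, c ∈ Algebra.adjoin O {u} → d ≠ algebraMap O F π * c :=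
  gaussUnram_adjoin (L' := F) π hπ j hj hi u
    (eq_top_iff.mpr fun x _ => Subalgebra.algebraMap_mem _ x) A D hD hrel hred

open IntermediateField in
/-- `gaussUnram_of_rel` for `j * u^2 = (u + 256)^3`. -/
theorem gaussUnram_of_cubic (π : O) (hπ : Irreducible π) (j u : F) (hj : Transcendental E j)
    [FiniteDimensional E⟮j⟯ F]
    (hi : ∃ b : Fin (Module.finrank E⟮j⟯ F) → F,
      (∀ i, IsIntegral (Algebra.adjoin O {j}) (b i)) ∧
      ∃ d : F, d ∈ Algebra.adjoin O {j} ∧
        ((Algebra.traceMatrix E⟮j⟯ b).det : F) = d ∧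
        ∀ c : F, c ∈ Algebra.adjoin O {j} → d ≠ algebraMap O F π * c)
    (hrel : (u + 256) ^ 3 = j * u ^ 2) :
    Transcendental E u ∧ FiniteDimensional E⟮u⟯ F ∧
      ∃ b : Fin (Module.finrank E⟮u⟯ F) → F,
        (∀ i, IsIntegral (Algebra.adjoin O {u}) (b i)) ∧
        ∃ d : F, d ∈ Algebra.adjoin O {u} ∧
          ((Algebra.traceMatrix E⟮u⟯ b).det : F) = d ∧
          ∀ c : F, c ∈ Algebra.adjoin O {u} → d ≠ algebraMap O F π * c :=
  gaussUnram_adjoin_cubic (L' := F) π hπ j hj hi u
    (eq_top_iff.mpr fun x _ => Subalgebra.algebraMap_mem _ x) hrel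

open IntermediateField in
/-- `gaussUnram_of_rel` for `j * u^3 = (u + 27)(u + 243)^3`. -/
theorem gaussUnram_of_quartic (π : O) (hπ : Irreducible π) (j u : F) (hj : Transcendental E j)
    [FiniteDimensional E⟮j⟯ F]
    (hi : ∃ b : Fin (Module.finrank E⟮j⟯ F) → F,
      (∀ i, IsIntegral (Algebra.adjoin O {j}) (b i)) ∧
      ∃ d : F, d ∈ Algebra.adjoin O {j} ∧
        ((Algebra.traceMatrix E⟮j⟯ b).det : F) = d ∧
        ∀ c : F, c ∈ Algebra.adjoin O {j} → d ≠ algebraMap O F π * c)
    (hrel : (u + 27) * (u + 243) ^ 3 = j * u ^ 3) :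
    Transcendental E u ∧ FiniteDimensional E⟮u⟯ F ∧
      ∃ b : Fin (Module.finrank E⟮u⟯ F) → F,
        (∀ i, IsIntegral (Algebra.adjoin O {u}) (b i)) ∧
        ∃ d : F, d ∈ Algebra.adjoin O {u} ∧
          ((Algebra.traceMatrix E⟮u⟯ b).det : F) = d ∧
          ∀ c : F, c ∈ Algebra.adjoin O {u} → d ≠ algebraMap O F π * c :=
  gaussUnram_adjoin_quartic (L' := F) π hπ j hj hi u
    (eq_top_iff.mpr fun x _ => Subalgebra.algebraMap_mem _ x) hrel

end fields

end Fermat.Agent.S30.AuxA.GaussBC
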