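/-
VARIANT A, brick A.P' (helper281): the compositum `L = F(u)` is unramified over the `u`-line
outside the excluded points — places form, from `Lib/AbhCompPlace.lean` (monomial Abhyankar).

* `ord_sub_eq_one_of_rel` : generic.  `A D : K[X]`, `A(u) = j * D(u)`, `b : K` with `D(b) ≠ 0`,
  `(A - a D)(X + b) = X ^ e0 * G`, `G(0) ≠ 0`; if every place `P` of `F` with `0 < P.ord (j - a)`
  has `P.ord (j - a) ∣ e0`, then every place `v` of `L` with `0 < v.ord (u - b)` has
  `v.ord (u - b) = 1`.
* `cubic_ord_eq_one`   : `(u + 256)^3 = j * u^2`, `b ≠ 0, -64`.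
* `quartic_ord_eq_one` : `(u + 27) * (u + 243)^3 = j * u^3`, `b ≠ 0, -27`.
-/
import Fermat.Agent.Lib.AbhCompPlace
import Fermat.Prelude.Def_AlgebraicCurve_DivisorPushPull

set_option autoImplicit false

namespace Fermat.Agent.S30.AuxA.CubicOrd

open Polynomial AlgebraicCurve

variable {K F L : Type*} [Field K] [Field F] [Field L] [Algebra K F] [Algebra K L] [Algebra F L]
  [IsScalarTower K F L]

/-- Polynomials in an element of positive order are integral at the place. -/
theorem aeval_mem (v : Place K L) (s : L) (hs : 0 < v.ord s) (p : K[X]) :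
    aeval s p ∈ v.toValuationSubring := by
  have hsm : s ∈ v.toValuationSubring := Fermat.Agent.S24.FF.mem_of_ord_pos v hs
  induction p using Polynomial.induction_on' with
  | add p q hp hq =>
    rw [map_add]
    exact add_mem hp hq
  | monomial n a =>
    rw [aeval_monomial]
    exact mul_mem (v.algebraMap_mem' a) (pow_mem hsm n)

/-- A polynomial with nonzero constant term is a unit at a place where `s` has positive order. -/
theorem aeval_ne_zero_and_ord (v : Place K L) (s : L) (hs : 0 < v.ord s) (p : K[X])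
    (hp : p.coeff 0 ≠ 0) : aeval s p ≠ 0 ∧ v.ord (aeval s p) = 0 := by
  have hs0 : s ≠ 0 := by
    rintro rfl
    simp at hs
  have hdec : aeval s p = algebraMap K L (p.coeff 0) + s * aeval s p.divX := by
    conv_lhs => rw [← Polynomial.divX_mul_X_add p]
    rw [map_add, map_mul, aeval_X, aeval_C]
    ring
  have hc : algebraMap K L (p.coeff 0) ≠ 0 :=
    (map_ne_zero_iff _ (algebraMap K L).injective).mpr hp
  have hc0 : v.ord (algebraMap K L (p.coeff 0)) = 0 := Fermat.Agent.S24.FF.ord_algebraMap v _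
  have hm : s * aeval s p.divX = 0 ∨
      v.ord (algebraMap K L (p.coeff 0)) < v.ord (s * aeval s p.divX) := by
    rcases eq_or_ne (aeval s p.divX) 0 with h | h
    · left
      rw [h, mul_zero]
    · right
      rw [hc0, v.ord_mul hs0 h]
      have := Fermat.Agent.S24.FF.ord_nonneg_of_mem v (aeval_mem v s hs p.divX)
      omega
  have key := Fermat.Agent.Lib.AbhComp.w_add_eq (w := v.ord)
    (fun x y hx hy => v.ord_mul hx hy)
    (fun x y _ _ hxy => Fermat.Agent.S24.FF.ord_add_ge v hxy) hc hm
  rw [hdec]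
  exact ⟨key.1, key.2.trans hc0⟩

/-- **Generic unramifiedness of the compositum over the `u`-line** (places form). -/
theorem ord_sub_eq_one_of_rel [CharZero K] (j : F) (u : L) (hint : IsIntegral F u)
    (hgen : IntermediateField.adjoin F {u} = ⊤)
    (A D : K[X]) (hrel : aeval u A = algebraMap F L j * aeval u D)
    (a b : K) (hDb : D.eval b ≠ 0) (e0 : ℕ) (he0 : 0 < e0) (G : K[X]) (hG0 : G.coeff 0 ≠ 0)
    (hfac : (A - C a * D).comp (X + C b) = X ^ e0 * G)
    (hdvd : ∀ P : Place K F, 0 < P.ord (j - algebraMap K F a) →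
      P.ord (j - algebraMap K F a) ∣ (e0 : ℤ))
    (v : Place K L) (hv : 0 < v.ord (u - algebraMap K L b)) :
    v.ord (u - algebraMap K L b) = 1 := by
  classical
  -- `L / F` is algebraic
  have hLint : Algebra.IsIntegral F L := by
    have : Algebra.IsAlgebraic F (IntermediateField.adjoin F {u}) :=
      IntermediateField.isAlgebraic_adjoin_simple hint
    refine ⟨fun x => ?_⟩
    have hx : x ∈ IntermediateField.adjoin F {u} := by
      rw [hgen]
      exact IntermediateField.mem_top
    have h1 : IsIntegral F (⟨x, hx⟩ : IntermediateField.adjoin F {u}) :=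
      Algebra.IsIntegral.isIntegral _
    exact (isIntegral_algebraMap_iff (B := L)
      (algebraMap (IntermediateField.adjoin F {u}) L).injective).mpr h1
  set s : L := u - algebraMap K L b with hsdef
  have hu : u = s + algebraMap K L b := by
    rw [hsdef]
    ring
  have hs0 : s ≠ 0 := by
    intro h
    rw [h] at hv
    simp at hv
  -- generation
  have hgen' : IntermediateField.adjoin F {s} = ⊤ := by
    rw [eq_top_iff, ← hgen, IntermediateField.adjoin_simple_le_iff, hu]
    refine add_mem (IntermediateField.mem_adjoin_simple_self F s) ?_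
    rw [IsScalarTower.algebraMap_apply K F L]
    exact IntermediateField.algebraMap_mem _ _
  -- the relation
  have haevalX : aeval s (X + C b : K[X]) = u := by
    rw [map_add, aeval_X, aeval_C, ← hu]
  have hrel' : algebraMap F L (j - algebraMap K F a) * aeval s (D.comp (X + C b)) =
      s ^ e0 * aeval s G := by
    have h1 : aeval s ((A - C a * D).comp (X + C b)) = s ^ e0 * aeval s G := by
      rw [hfac, map_mul, map_pow, aeval_X]
    rw [← h1, aeval_comp, aeval_comp, haevalX, map_sub (algebraMap F L),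
      ← IsScalarTower.algebraMap_apply K F L, map_sub (aeval (R := K) u), map_mul (aeval (R := K) u), aeval_C,
      hrel]
    ring
  have hb0 : (D.comp (X + C b)).coeff 0 ≠ 0 := by
    rw [coeff_zero_eq_eval_zero, eval_comp]
    simpa using hDb
  -- orders
  obtain ⟨hG1, hG2⟩ := aeval_ne_zero_and_ord v s hv G hG0
  obtain ⟨hD1, hD2⟩ := aeval_ne_zero_and_ord v s hv _ hb0
  have ht0L : algebraMap F L (j - algebraMap K F a) ≠ 0 := by
    intro h
    rw [h, zero_mul] at hrel'
    exact mul_ne_zero (pow_ne_zero _ hs0) hG1 hrel'.symm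
  have hordL : v.ord (algebraMap F L (j - algebraMap K F a)) = e0 * v.ord s := by
    have h1 := congrArg v.ord hrel'
    rw [v.ord_mul ht0L hD1, v.ord_mul (pow_ne_zero _ hs0) hG1, hD2, hG2, add_zero, add_zero,
      ← zpow_natCast, v.ord_zpow] at h1
    exact h1
  have hpos : 0 < (v.restrict F).ord (j - algebraMap K F a) := by
    have h1 := v.ord_restrict (F := F) (j - algebraMap K F a)
    rw [hordL] at h1
    have h2 : (0 : ℤ) < e0 * v.ord s := mul_pos (by exact_mod_cast he0) hv
    rw [h1] at h2
    have h3 : (0 : ℤ) < (Place.ramificationIndex (F := F) v : ℤ) := by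
      exact_mod_cast Place.ramificationIndex_pos (F := F) v
    by_contra hneg
    have h4 : (v.restrict F).ord (j - algebraMap K F a) ≤ 0 := not_lt.mp hneg
    nlinarith [mul_nonpos_of_nonneg_of_nonpos h3.le h4]
  exact Fermat.Agent.Lib.AbhComp.place_ord_eq_one_of_dvd (v.restrict F) v rfl s hv hgen'
    (j - algebraMap K F a) hpos G (D.comp (X + C b)) hG0 hb0 e0 he0 hrel' (hdvd _ hpos)

/-- **Cubic cover** `j = (u + 256)^3 / u^2` (Hauptmodul of level 2): the compositum `F(u)` is
unramified over the `u`-line at every finite point `u = b`, `b ≠ 0, -64`. -/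
theorem cubic_ord_eq_one [CharZero K] (j : F) (u : L)
    (hgen : IntermediateField.adjoin F {u} = ⊤)
    (hrel : (u + 256) ^ 3 = algebraMap F L j * u ^ 2)
    (h0 : ∀ P : Place K F, 0 < P.ord j → P.ord j ∣ 3)
    (h1 : ∀ P : Place K F, 0 < P.ord (j - 1728) → P.ord (j - 1728) ∣ 2)
    (hg : ∀ a : K, a ≠ 0 → a ≠ 1728 → ∀ P : Place K F,
      0 < P.ord (j - algebraMap K F a) → P.ord (j - algebraMap K F a) = 1)
    (v : Place K L) (b : K) (hb0 : b ≠ 0) (hb : b ≠ -64)
    (hv : 0 < v.ord (u - algebraMap K L b)) : v.ord (u - algebraMap K L b) = 1 := by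
  have hint : IsIntegral F u := by
    refine ⟨X ^ 3 + (C (768 - j) * X ^ 2 + C (196608 : F) * X + C (16777216 : F)), ?_, ?_⟩
    · refine Polynomial.monic_X_pow_add ?_
      exact (Polynomial.degree_le_of_natDegree_le (n := 2) (by compute_degree)).trans_lt
        (by norm_num)
    · simp only [eval₂_add, eval₂_mul, eval₂_pow, eval₂_X, eval₂_C]
      simp only [map_sub, map_ofNat]
      linear_combination hrel
  have hrel' : aeval u ((X + C (256 : K)) ^ 3 : K[X]) =
      algebraMap F L j * aeval u (X ^ 2 : K[X]) := by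
    simp only [map_pow, map_add, aeval_X, aeval_C]
    simp only [map_ofNat]
    exact hrel
  have hD : (X ^ 2 : K[X]).eval b ≠ 0 := by
    simpa using hb0
  by_cases hb256 : b = -256
  · -- over `j = 0`, index 3
    subst hb256
    refine ord_sub_eq_one_of_rel j u hint hgen _ _ hrel' 0 (-256) hD 3 (by norm_num) 1
      (by simp) ?_ ?_ v hv
    · simp only [map_zero, zero_mul, sub_zero, pow_comp, add_comp, X_comp, C_comp, mul_one]
      simp only [map_neg, map_ofNat]
      ring
    · intro P hP
      rw [map_zero, sub_zero] at hP ⊢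
      exact_mod_cast h0 P hP
  by_cases hb512 : b = 512
  · -- over `j = 1728`, index 2
    subst hb512
    refine ord_sub_eq_one_of_rel j u hint hgen _ _ hrel' 1728 512 hD 2 (by norm_num)
      (X + C (576 : K)) ?_ ?_ ?_ v hv
    · rw [coeff_zero_eq_eval_zero]
      simp
    · simp only [sub_comp, mul_comp, pow_comp, add_comp, X_comp, C_comp]
      simp only [map_ofNat]
      ring
    · intro P hP
      rw [map_ofNat] at hP ⊢
      exact_mod_cast h1 P hP
  -- generic point
  have hc : b + 256 ≠ 0 := fun h => hb256 (by linear_combination h)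
  have hb512' : b - 512 ≠ 0 := sub_ne_zero.mpr hb512
  have hb64 : b + 64 ≠ 0 := fun h => hb (by linear_combination h)
  obtain ⟨a, hab⟩ : ∃ a : K, a * b ^ 2 = (b + 256) ^ 3 :=
    ⟨(b + 256) ^ 3 / b ^ 2, by field_simp⟩
  have ha0 : a ≠ 0 := by
    rintro rfl
    rw [zero_mul] at hab
    exact pow_ne_zero 3 hc hab.symm
  have ha1728 : a ≠ 1728 := by
    intro h
    have h2 : (b + 64) * (b - 512) ^ 2 = 0 := by
      linear_combination (-1 : K) * hab + b ^ 2 * h
    exact mul_ne_zero hb64 (pow_ne_zero 2 hb512') h2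
  refine ord_sub_eq_one_of_rel j u hint hgen _ _ hrel' a b hD 1 (by norm_num)
    (X ^ 2 + C (3 * (b + 256) - a) * X + C (3 * (b + 256) ^ 2 - 2 * a * b)) ?_ ?_ ?_ v hv
  · rw [coeff_zero_eq_eval_zero]
    simp only [eval_add, eval_mul, eval_pow, eval_X, eval_C]
    intro h
    have h2 : (b + 256) ^ 2 * (b - 512) = 0 := by
      linear_combination b * h + 2 * hab
    exact mul_ne_zero (pow_ne_zero 2 hc) hb512' h2
  · have hC : (C a : K[X]) * C b ^ 2 = (C b + 256) ^ 3 := by
      rw [← C_pow, ← C_mul, hab, C_pow, C_add, map_ofNat]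
    simp only [sub_comp, mul_comp, pow_comp, add_comp, X_comp, C_comp]
    simp only [C_sub, C_mul, C_add, C_pow, map_ofNat]
    linear_combination (-1 : K[X]) * hC
  · intro P hP
    rw [hg a ha0 ha1728 P hP]
    simp

/-- **Quartic cover** `j = (u + 27)(u + 243)^3 / u^3` (Hauptmodul of level 3): the compositum
`F(u)` is unramified over the `u`-line at every finite point `u = b`, `b ≠ 0, -27`. -/
theorem quartic_ord_eq_one [CharZero K] (j : F) (u : L)
    (hgen : IntermediateField.adjoin F {u} = ⊤)
    (hrel : (u + 27) * (u + 243) ^ 3 = algebraMap F L j * u ^ 3)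
    (h0 : ∀ P : Place K F, 0 < P.ord j → P.ord j ∣ 3)
    (h1 : ∀ P : Place K F, 0 < P.ord (j - 1728) → P.ord (j - 1728) ∣ 2)
    (hg : ∀ a : K, a ≠ 0 → a ≠ 1728 → ∀ P : Place K F,
      0 < P.ord (j - algebraMap K F a) → P.ord (j - algebraMap K F a) = 1)
    (v : Place K L) (b : K) (hb0 : b ≠ 0) (hb : b ≠ -27)
    (hv : 0 < v.ord (u - algebraMap K L b)) : v.ord (u - algebraMap K L b) = 1 := by
  have hint : IsIntegral F u := by
    refine ⟨X ^ 4 + (C (756 - j) * X ^ 3 + C (196830 : F) * X ^ 2 + C (19131876 : F) * X +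
      C (387420489 : F)), ?_, ?_⟩
    · refine Polynomial.monic_X_pow_add ?_
      exact (Polynomial.degree_le_of_natDegree_le (n := 3) (by compute_degree)).trans_lt
        (by norm_num)
    · simp only [eval₂_add, eval₂_mul, eval₂_pow, eval₂_X, eval₂_C]
      simp only [map_sub, map_ofNat]
      linear_combination hrel
  have hrel' : aeval u ((X + C (27 : K)) * (X + C (243 : K)) ^ 3 : K[X]) =
      algebraMap F L j * aeval u (X ^ 3 : K[X]) := by
    simp only [map_mul, map_pow, map_add, aeval_X, aeval_C]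
    simp only [map_ofNat]
    exact hrel
  have hD : (X ^ 3 : K[X]).eval b ≠ 0 := by
    simpa using hb0
  by_cases hb243 : b = -243
  · -- over `j = 0`, index 3
    subst hb243
    refine ord_sub_eq_one_of_rel j u hint hgen _ _ hrel' 0 (-243) hD 3 (by norm_num)
      (X - C (216 : K)) ?_ ?_ ?_ v hv
    · rw [coeff_zero_eq_eval_zero]
      simp
    · simp only [map_zero, zero_mul, sub_zero, mul_comp, pow_comp, add_comp, X_comp, C_comp]
      simp only [map_neg, map_ofNat]
      ring
    · intro P hP
      rw [map_zero, sub_zero] at hP ⊢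
      exact_mod_cast h0 P hP
  by_cases hroot : b ^ 2 - 486 * b - 19683 = 0
  · -- over `j = 1728`, index 2
    refine ord_sub_eq_one_of_rel j u hint hgen _ _ hrel' 1728 b hD 2 (by norm_num)
      ((X + C (2 * b - 486)) ^ 2) ?_ ?_ ?_ v hv
    · rw [coeff_zero_eq_eval_zero]
      simp only [eval_add, eval_pow, eval_X, eval_C]
      intro h
      have h2 : (2 * b - 486) = 0 := by
        simpa using h
      have h3 : (78732 : K) = 0 := by
        linear_combination (b / 2 - 243 / 2) * h2 - hroot
      norm_num at h3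
    · have hκ : (C b : K[X]) ^ 2 - 486 * C b - 19683 = 0 := by
        have := congrArg (C : K → K[X]) hroot
        simpa only [C_sub, C_mul, C_pow, map_ofNat, map_zero] using this
      simp only [sub_comp, mul_comp, pow_comp, add_comp, X_comp, C_comp]
      simp only [C_sub, C_mul, map_ofNat]
      linear_combination (2 * X * (X + 2 * C b - 486) + (C b ^ 2 - 486 * C b - 19683)) * hκ
    · intro P hP
      rw [map_ofNat] at hP ⊢
      exact_mod_cast h1 P hP
  -- generic point
  have hc1 : b + 27 ≠ 0 := fun h => hb (by linear_combination h)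
  have hc2 : b + 243 ≠ 0 := fun h => hb243 (by linear_combination h)
  obtain ⟨a, hab⟩ : ∃ a : K, a * b ^ 3 = (b + 27) * (b + 243) ^ 3 :=
    ⟨(b + 27) * (b + 243) ^ 3 / b ^ 3, by field_simp⟩
  have ha0 : a ≠ 0 := by
    rintro rfl
    rw [zero_mul] at hab
    exact mul_ne_zero hc1 (pow_ne_zero 3 hc2) hab.symm
  have ha1728 : a ≠ 1728 := by
    intro h
    have h2 : (b ^ 2 - 486 * b - 19683) ^ 2 = 0 := by
      linear_combination (-1 : K) * hab + b ^ 3 * h
    exact pow_ne_zero 2 hroot h2
  refine ord_sub_eq_one_of_rel j u hint hgen _ _ hrel' a b hD 1 (by norm_num)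
    (X ^ 3 + C ((b + 27) + 3 * (b + 243) - a) * X ^ 2 +
      C (3 * (b + 27) * (b + 243) + 3 * (b + 243) ^ 2 - 3 * a * b) * X +
      C (3 * (b + 27) * (b + 243) ^ 2 + (b + 243) ^ 3 - 3 * a * b ^ 2)) ?_ ?_ ?_ v hv
  · rw [coeff_zero_eq_eval_zero]
    simp only [eval_add, eval_mul, eval_pow, eval_X, eval_C]
    intro h
    have h2 : (b + 243) ^ 2 * (b ^ 2 - 486 * b - 19683) = 0 := by
      linear_combination b * h + 3 * hab
    exact mul_ne_zero (pow_ne_zero 2 hc2) hroot h2
  · have hC : (C a : K[X]) * C b ^ 3 = (C b + 27) * (C b + 243) ^ 3 := by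
      rw [← C_pow, ← C_mul, hab, C_mul, C_pow, C_add, C_add, map_ofNat, map_ofNat]
    simp only [sub_comp, mul_comp, pow_comp, add_comp, X_comp, C_comp]
    simp only [C_sub, C_mul, C_add, C_pow, map_ofNat]
    linear_combination (-1 : K[X]) * hC
  · intro P hP
    rw [hg a ha0 ha1728 P hP]
    simp

/-- `Algebra.adjoin` form of the generation hypothesis. -/
theorem cubic_ord_eq_one' [CharZero K] (j : F) (u : L)
    (hgen : Algebra.adjoin F {u} = ⊤)
    (hrel : (u + 256) ^ 3 = algebraMap F L j * u ^ 2)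
    (h0 : ∀ P : Place K F, 0 < P.ord j → P.ord j ∣ 3)
    (h1 : ∀ P : Place K F, 0 < P.ord (j - 1728) → P.ord (j - 1728) ∣ 2)
    (hg : ∀ a : K, a ≠ 0 → a ≠ 1728 → ∀ P : Place K F,
      0 < P.ord (j - algebraMap K F a) → P.ord (j - algebraMap K F a) = 1)
    (v : Place K L) (b : K) (hb0 : b ≠ 0) (hb : b ≠ -64)
    (hv : 0 < v.ord (u - algebraMap K L b)) : v.ord (u - algebraMap K L b) = 1 := by
  have hgen' : IntermediateField.adjoin F {u} = ⊤ :=
    IntermediateField.adjoin_eq_top_of_algebra F {u} hgen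
  exact cubic_ord_eq_one j u hgen' hrel h0 h1 hg v b hb0 hb hv

/-- `Algebra.adjoin` form of the generation hypothesis. -/
theorem quartic_ord_eq_one' [CharZero K] (j : F) (u : L)
    (hgen : Algebra.adjoin F {u} = ⊤)
    (hrel : (u + 27) * (u + 243) ^ 3 = algebraMap F L j * u ^ 3)
    (h0 : ∀ P : Place K F, 0 < P.ord j → P.ord j ∣ 3)
    (h1 : ∀ P : Place K F, 0 < P.ord (j - 1728) → P.ord (j - 1728) ∣ 2)
    (hg : ∀ a : K, a ≠ 0 → a ≠ 1728 → ∀ P : Place K F,
      0 < P.ord (j - algebraMap K F a) → P.ord (j - algebraMap K F a) = 1)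
    (v : Place K L) (b : K) (hb0 : b ≠ 0) (hb : b ≠ -27)
    (hv : 0 < v.ord (u - algebraMap K L b)) : v.ord (u - algebraMap K L b) = 1 := by
  have hgen' : IntermediateField.adjoin F {u} = ⊤ :=
    IntermediateField.adjoin_eq_top_of_algebra F {u} hgen
  exact quartic_ord_eq_one j u hgen' hrel h0 h1 hg v b hb0 hb hv

end Fermat.Agent.S30.AuxA.CubicOrd
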