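/-
Same-field forms of `AuxA/CubicOrd.lean` (helper281): `t : F` itself (no compositum), in the
literal shapes of the rows H.Tower2 / H.Tower3 (tower `K(j) ⊆ K(t) ⊆ F`).
-/
import Fermat.Agent.S30.AuxA.CubicOrd

set_option autoImplicit false

namespace Fermat.Agent.S30.AuxA.CubicOrd

open Polynomial AlgebraicCurve

/-- Every intermediate field of `F / F` is `⊤`. -/
theorem adjoin_self_eq_top {F : Type*} [Field F] (t : F) :
    IntermediateField.adjoin F {t} = ⊤ := by
  rw [eq_top_iff]
  intro x _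
  exact IntermediateField.algebraMap_mem _ x

/-- **H.Tower2 shape**: `j * t^2 = (t + 256)^3` inside `F`; every place of `F` at which `t - a`
vanishes (`a ≠ 0, -64`) has `ord (t - a) = 1`. -/
theorem cubic_ord_eq_one_self {K F : Type*} [Field K] [CharZero K] [Field F] [Algebra K F]
    (j t : F) (hrel : j * t ^ 2 = (t + 256) ^ 3)
    (hg : ∀ b : K, b ≠ 0 → b ≠ 1728 → ∀ v : Place K F,
      0 < v.ord (j - algebraMap K F b) → v.ord (j - algebraMap K F b) = 1)
    (h0 : ∀ v : Place K F, 0 < v.ord j → v.ord j ∣ 3)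
    (h1 : ∀ v : Place K F, 0 < v.ord (j - algebraMap K F 1728) →
      v.ord (j - algebraMap K F 1728) ∣ 2)
    (a : K) (ha0 : a ≠ 0) (ha : a ≠ -64) (v : Place K F)
    (hv : 0 < v.ord (t - algebraMap K F a)) : v.ord (t - algebraMap K F a) = 1 := by
  have h1' : ∀ P : Place K F, 0 < P.ord (j - 1728) → P.ord (j - 1728) ∣ 2 := by
    intro P hP
    have h := h1 P
    rw [map_ofNat] at h
    exact h hP
  exact cubic_ord_eq_one (K := K) (F := F) (L := F) j t (adjoin_self_eq_top t)
    (by rw [Algebra.algebraMap_self_apply]; exact hrel.symm) h0 h1' hg v a ha0 ha hv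

/-- **H.Tower3 shape**: `j * t^3 = (t + 27) * (t + 243)^3` inside `F`; every place of `F` at
which `t - a` vanishes (`a ≠ 0, -27`) has `ord (t - a) = 1`. -/
theorem quartic_ord_eq_one_self {K F : Type*} [Field K] [CharZero K] [Field F] [Algebra K F]
    (j t : F) (hrel : j * t ^ 3 = (t + 27) * (t + 243) ^ 3)
    (hg : ∀ b : K, b ≠ 0 → b ≠ 1728 → ∀ v : Place K F,
      0 < v.ord (j - algebraMap K F b) → v.ord (j - algebraMap K F b) = 1)
    (h0 : ∀ v : Place K F, 0 < v.ord j → v.ord j ∣ 3)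
    (h1 : ∀ v : Place K F, 0 < v.ord (j - algebraMap K F 1728) →
      v.ord (j - algebraMap K F 1728) ∣ 2)
    (a : K) (ha0 : a ≠ 0) (ha : a ≠ -27) (v : Place K F)
    (hv : 0 < v.ord (t - algebraMap K F a)) : v.ord (t - algebraMap K F a) = 1 := by
  have h1' : ∀ P : Place K F, 0 < P.ord (j - 1728) → P.ord (j - 1728) ∣ 2 := by
    intro P hP
    have h := h1 P
    rw [map_ofNat] at h
    exact h hP
  exact quartic_ord_eq_one (K := K) (F := F) (L := F) j t (adjoin_self_eq_top t)
    (by rw [Algebra.algebraMap_self_apply]; exact hrel.symm) h0 h1' hg v a ha0 ha hv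

end Fermat.Agent.S30.AuxA.CubicOrd
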