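import Mathlib
import Fermat.Prelude.Def_ModularCurve_LaurentCoeff

/-!
# Variant A (auxiliary base for `ℓ = 2, 3`): the field `F(u)` inside `E((q))`

Generic bookkeeping, no modular input.

* `Incl`: for intermediate fields `F ≤ M` of `K / k` with `M = F(y)` as sets and `y` algebraic over
  `F`, with the inclusion algebra `F → M` (the one used by `S18.LevelDescent.k1E_of_le`):
  `Algebra.adjoin F {y} = ⊤`, `IntermediateField.adjoin F {y} = ⊤`,
  `finrank F M = natDegree (minpoly F y)`.
* `natDegree_minpoly_cubic` / `natDegree_minpoly_quartic`: if a monic cubic (quartic) over `F` has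
  the root `u` and no other root in `F`, then `[F(u) : F] ∈ {1, 3}` (resp. `{1, 2, 4}`).
* `LBC`: `laurentBaseChange L (ℚ(D ∪ {x})) = (laurentBaseChange L ℚ(D))(coeffEmb x)` as sets.
-/

set_option autoImplicit false
set_option linter.style.haveILetI false

noncomputable section

namespace Fermat.Agent.S30.AuxA.Field

open ModularCurve IntermediateField Polynomial

/-! ### `M = F(y)` with the inclusion algebra -/

section Incl

variable {k K : Type*} [Field k] [Field K] [Algebra k K]
  (F M : IntermediateField k K) (hle : F ≤ M) (y : K)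

/-- The algebra structure `F → M` given by inclusion. -/
abbrev inclAlg : Algebra F M := (IntermediateField.inclusion hle).toRingHom.toAlgebra

theorem inclAlg_algebraMap_coe (a : F) :
    letI := inclAlg F M hle
    ((algebraMap F M a : M) : K) = (a : K) := rfl

/-- The coercion `M → K` as an `F`-algebra map (for the inclusion algebra). -/
def valF : letI := inclAlg F M hle
    M →ₐ[F] K :=
  letI := inclAlg F M hle
  { toRingHom := M.val.toRingHom
    commutes' := fun _ => rfl }

theorem valF_apply (z : M) :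
    letI := inclAlg F M hle
    valF F M hle z = (z : K) := rfl

theorem coe_aeval (hy : y ∈ M) (P : F[X]) :
    letI := inclAlg F M hle
    ((aeval (⟨y, hy⟩ : M) P : M) : K) = aeval y P := by
  letI := inclAlg F M hle
  have h := Polynomial.aeval_algHom_apply (valF F M hle) (⟨y, hy⟩ : M) P
  rw [valF_apply, valF_apply] at h
  exact h.symm

variable (hM : ∀ z, z ∈ M ↔ z ∈ F⟮y⟯)

include hM in
theorem gen_mem : y ∈ M := (hM y).2 (mem_adjoin_simple_self F y)

include hM in
/-- `M = F[y]` as an `F`-algebra. -/
theorem algebra_adjoin_eq_top (hy : y ∈ M) (halg : IsAlgebraic F y) :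
    letI := inclAlg F M hle
    Algebra.adjoin F {(⟨y, hy⟩ : M)} = ⊤ := by
  letI := inclAlg F M hle
  rw [eq_top_iff]
  rintro ⟨z, hz⟩ -
  have h1 : z ∈ F⟮y⟯.toSubalgebra := (hM z).1 hz
  rw [IntermediateField.adjoin_simple_toSubalgebra_of_isAlgebraic halg,
    Algebra.adjoin_singleton_eq_range_aeval] at h1
  obtain ⟨P, hP⟩ := h1
  have h2 : (⟨z, hz⟩ : M) = aeval (⟨y, hy⟩ : M) P := by
    apply Subtype.ext
    rw [coe_aeval F M hle y hy P]
    exact hP.symm
  rw [h2]
  exact aeval_mem_adjoin_singleton F _

include hM in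
/-- `M = F(y)` as a field over `F`. -/
theorem field_adjoin_eq_top (hy : y ∈ M) (halg : IsAlgebraic F y) :
    letI := inclAlg F M hle
    IntermediateField.adjoin F {(⟨y, hy⟩ : M)} = ⊤ := by
  letI := inclAlg F M hle
  rw [eq_top_iff]
  intro z _
  have h1 := algebra_adjoin_eq_top F M hle y hM hy halg
  have h2 : z ∈ Algebra.adjoin F {(⟨y, hy⟩ : M)} := by rw [h1]; exact Algebra.mem_top
  exact IntermediateField.algebra_adjoin_le_adjoin F _ h2

include hM in
/-- The `F`-linear identification `M ≃ F(y)`. -/
def linEquiv : letI := inclAlg F M hle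
    M ≃ₗ[F] F⟮y⟯ :=
  letI := inclAlg F M hle
  { toFun := fun z => ⟨z.1, (hM z.1).1 z.2⟩
    invFun := fun w => ⟨w.1, (hM w.1).2 w.2⟩
    map_add' := fun _ _ => rfl
    map_smul' := fun a z => by
      apply Subtype.ext
      show ((a • z : M) : K) = ((a • (⟨z.1, (hM z.1).1 z.2⟩ : F⟮y⟯) : F⟮y⟯) : K)
      rw [Algebra.smul_def, Algebra.smul_def]
      rfl
    left_inv := fun _ => rfl
    right_inv := fun _ => rfl }

include hM in
theorem finrank_eq (halg : IsIntegral F y) :
    letI := inclAlg F M hle
    Module.finrank F M = (minpoly F y).natDegree := by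
  letI := inclAlg F M hle
  rw [(linEquiv F M hle y hM).finrank_eq, IntermediateField.adjoin.finrank halg]

end Incl

/-! ### Degree of `F(u)/F` for a cubic / quartic with a single root in `F` -/

section Degree

variable {F K : Type*} [Field F] [Field K] [Algebra F K]

theorem natDegree_minpoly_dichotomy (c : F[X]) (hc : c.Monic) (u : K) (hu : aeval u c = 0)
    (huniq : ∀ r : F, c.eval r = 0 → algebraMap F K r = u) :
    (minpoly F u).natDegree = 1 ∨ (minpoly F u).natDegree + 1 ≠ c.natDegree := by
  have hint : IsIntegral F u := ⟨c, hc, by rwa [← aeval_def]⟩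
  by_contra hcon
  obtain ⟨h1, h2'⟩ := not_or.mp hcon
  have h2 := not_not.mp h2'
  obtain ⟨q, hq⟩ := minpoly.dvd F u hu
  have hm : (minpoly F u).Monic := minpoly.monic hint
  have hq0 : q ≠ 0 := by
    rintro rfl
    rw [mul_zero] at hq
    exact hc.ne_zero hq
  have hdeg : c.natDegree = (minpoly F u).natDegree + q.natDegree := by
    rw [hq, natDegree_mul hm.ne_zero hq0]
  have hq1 : q.natDegree = 1 := by omega
  have hq1' : q.degree = 1 := by
    rw [degree_eq_natDegree hq0, hq1]; rfl
  obtain ⟨r, hr⟩ := exists_root_of_degree_eq_one hq1'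
  have hcr : c.eval r = 0 := by
    rw [hq, eval_mul, hr.eq_zero, mul_zero]
  have hur := huniq r hcr
  have h3 : (minpoly F u).natDegree = 1 :=
    (minpoly.natDegree_eq_one_iff).2 ⟨r, hur⟩
  exact h1 h3

theorem natDegree_minpoly_le (c : F[X]) (hc : c.Monic) (u : K) (hu : aeval u c = 0) :
    (minpoly F u).natDegree ≤ c.natDegree :=
  natDegree_le_of_dvd (minpoly.dvd F u hu) hc.ne_zero

theorem natDegree_minpoly_cubic (c : F[X]) (hc : c.Monic) (hdeg : c.natDegree = 3) (u : K)
    (hu : aeval u c = 0) (huniq : ∀ r : F, c.eval r = 0 → algebraMap F K r = u) :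
    (minpoly F u).natDegree = 1 ∨ (minpoly F u).natDegree = 3 := by
  have hint : IsIntegral F u := ⟨c, hc, by rwa [← aeval_def]⟩
  have h1 := natDegree_minpoly_dichotomy c hc u hu huniq
  have h2 := natDegree_minpoly_le c hc u hu
  have h3 := minpoly.natDegree_pos hint
  omega

theorem natDegree_minpoly_quartic (c : F[X]) (hc : c.Monic) (hdeg : c.natDegree = 4) (u : K)
    (hu : aeval u c = 0) (huniq : ∀ r : F, c.eval r = 0 → algebraMap F K r = u) :
    (minpoly F u).natDegree = 1 ∨ (minpoly F u).natDegree = 2 ∨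
      (minpoly F u).natDegree = 4 := by
  have hint : IsIntegral F u := ⟨c, hc, by rwa [← aeval_def]⟩
  have h1 := natDegree_minpoly_dichotomy c hc u hu huniq
  have h2 := natDegree_minpoly_le c hc u hu
  have h3 := minpoly.natDegree_pos hint
  omega

end Degree

/-! ### `laurentBaseChange` of a simple extension -/

section LBC

variable (L : Type*) [Field L] [Algebra ℚ L]

theorem coeffEmb_algebraMap (c : ℚ) :
    coeffEmb L (algebraMap ℚ (LaurentSeries ℚ) c) =
      algebraMap L (LaurentSeries L) (algebraMap ℚ L c) := by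
  rw [algebraMap_laurentSeries_eq_single, algebraMap_laurentSeries_eq_single, coeffEmb,
    coeffMap_single]

/-- `coeffEmb` maps `ℚ(D)` into any intermediate field containing `coeffEmb '' D`. -/
theorem coeffEmb_mem_of_mem_adjoin (D : Set (LaurentSeries ℚ))
    (T : IntermediateField L (LaurentSeries L)) (hT : ∀ d ∈ D, coeffEmb L d ∈ T)
    {z : LaurentSeries ℚ} (hz : z ∈ IntermediateField.adjoin ℚ D) : coeffEmb L z ∈ T := by
  have hle : (IntermediateField.adjoin ℚ D).toSubfield ≤ T.toSubfield.comap (coeffEmb L) := by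
    show Subfield.closure (Set.range (algebraMap ℚ (LaurentSeries ℚ)) ∪ D) ≤ _
    rw [Subfield.closure_le]
    rintro x (⟨c, rfl⟩ | hx)
    · show coeffEmb L (algebraMap ℚ (LaurentSeries ℚ) c) ∈ T
      rw [coeffEmb_algebraMap]
      exact T.algebraMap_mem _
    · exact hT x hx
  exact hle hz

theorem lbc_mono {F₀ F₁ : IntermediateField ℚ (LaurentSeries ℚ)} (h : F₀ ≤ F₁) :
    laurentBaseChange L F₀ ≤ laurentBaseChange L F₁ := by
  rw [laurentBaseChange, IntermediateField.adjoin_le_iff]
  rintro _ ⟨y, hy, rfl⟩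
  exact coeffEmb_mem_laurentBaseChange L (h hy)

/-- `laurentBaseChange L ℚ(D ∪ {x}) = (laurentBaseChange L ℚ(D))(coeffEmb x)`, as sets. -/
theorem mem_lbc_insert_iff (D : Set (LaurentSeries ℚ)) (x : LaurentSeries ℚ)
    (z : LaurentSeries L) :
    z ∈ laurentBaseChange L (IntermediateField.adjoin ℚ (D ∪ {x})) ↔
      z ∈ IntermediateField.adjoin (laurentBaseChange L (IntermediateField.adjoin ℚ D))
        {coeffEmb L x} := by
  set Fb := laurentBaseChange L (IntermediateField.adjoin ℚ D) with hFb
  have hrs : ∀ w, w ∈ (IntermediateField.adjoin Fb {coeffEmb L x}).restrictScalars L ↔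
      w ∈ IntermediateField.adjoin Fb {coeffEmb L x} := fun w => Iff.rfl
  rw [← hrs]
  have heq : laurentBaseChange L (IntermediateField.adjoin ℚ (D ∪ {x})) =
      (IntermediateField.adjoin Fb {coeffEmb L x}).restrictScalars L := by
    apply le_antisymm
    · rw [laurentBaseChange, IntermediateField.adjoin_le_iff]
      rintro _ ⟨w, hw, rfl⟩
      refine coeffEmb_mem_of_mem_adjoin L (D ∪ {x}) _ ?_ hw
      rintro d (hd | hd)
      · have h1 : coeffEmb L d ∈ Fb :=
          coeffEmb_mem_laurentBaseChange L (IntermediateField.subset_adjoin ℚ D hd)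
        exact (hrs _).2 ((IntermediateField.adjoin Fb {coeffEmb L x}).algebraMap_mem ⟨_, h1⟩)
      · rw [Set.mem_singleton_iff] at hd
        rw [hd]
        exact (hrs _).2 (mem_adjoin_simple_self Fb _)
    · rw [IntermediateField.restrictScalars_adjoin, IntermediateField.adjoin_le_iff]
      rintro w (hw | hw)
      · exact lbc_mono L (IntermediateField.adjoin.mono ℚ _ _ Set.subset_union_left) hw
      · rw [Set.mem_singleton_iff] at hw
        rw [hw]
        exact coeffEmb_mem_laurentBaseChange L
          (IntermediateField.subset_adjoin ℚ _ (Set.mem_union_right _ rfl))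
  rw [heq]

end LBC

end Fermat.Agent.S30.AuxA.Field
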