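import Mathlib

/-!
# Variant A (auxiliary base for `ℓ = 2, 3`): uniqueness of the Hauptmodul root in `K((q))`

`K` a field of characteristic zero, `j s : K((q))` with `s` of order `1`.

* `cubic_unique`   : if `j * s = (1 + 256 s)^3` and `j * t = (1 + 256 t)^3` then `t = s`;
* `quartic_unique` : if `j * s = (1 + 27 s)(1 + 243 s)^3` and `j * t = (1 + 27 t)(1 + 243 t)^3`
  then `t = s`.

(The other roots of the relation live in `K((q^{1/2}))`, resp. `K((q^{1/3}))`: a second root `t`
would satisfy `1 = s t (…)`, which forces `2 · ord t = -1`, resp. `3 · ord t = -1`.)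

Consequently the polynomial `(X + 256)^3 - j X^2` (resp. `(X + 27)(X + 243)^3 - j X^3`) has exactly
one root `u = s⁻¹` in `K((q))`: `cubic_root_unique`, `quartic_root_unique`.
-/

set_option autoImplicit false

namespace Fermat.Agent.S30.AuxA.Uniq

open HahnSeries

variable {K : Type*} [Field K]

/-- The order valuation of `K((q))`. -/
noncomputable abbrev vv (K : Type*) [Field K] : AddValuation (LaurentSeries K) (WithTop ℤ) :=
  HahnSeries.addVal ℤ K

theorem vv_natCast [CharZero K] (n : ℕ) (hn : n ≠ 0) : vv K (n : LaurentSeries K) = 0 := by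
  have h1 : ((n : ℕ) : LaurentSeries K) = HahnSeries.single 0 (n : K) := by
    rw [← HahnSeries.C_apply, map_natCast]
  rw [h1, HahnSeries.addVal_apply, HahnSeries.orderTop_single (Nat.cast_ne_zero.mpr hn)]
  rfl

theorem vv_ofNat [CharZero K] (n : ℕ) [n.AtLeastTwo] :
    vv K (OfNat.ofNat n : LaurentSeries K) = 0 := by
  have h := vv_natCast (K := K) n (NeZero.ne n)
  have h2 : ((n : ℕ) : LaurentSeries K) = OfNat.ofNat n := Nat.cast_ofNat
  rwa [h2] at h

theorem vv_natCast_nonneg (n : ℕ) : 0 ≤ vv K (n : LaurentSeries K) := by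
  have h1 : ((n : ℕ) : LaurentSeries K) = HahnSeries.single 0 (n : K) := by
    rw [← HahnSeries.C_apply, map_natCast]
  rw [h1, HahnSeries.addVal_apply]
  exact HahnSeries.orderTop_single_le

theorem vv_ofNat_nonneg (n : ℕ) [n.AtLeastTwo] :
    0 ≤ vv K (OfNat.ofNat n : LaurentSeries K) := by
  have h := vv_natCast_nonneg (K := K) n
  have h2 : ((n : ℕ) : LaurentSeries K) = OfNat.ofNat n := Nat.cast_ofNat
  rwa [h2] at h

theorem vv_eq_coe {x : LaurentSeries K} (hx : x ≠ 0) : ∃ m : ℤ, vv K x = (m : WithTop ℤ) :=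
  ⟨x.order, HahnSeries.addVal_apply_of_ne hx⟩

/-- **Uniqueness for the cubic relation.** -/
theorem cubic_unique [CharZero K] (j s t : LaurentSeries K)
    (hs : j * s = (1 + 256 * s) ^ 3) (ht : j * t = (1 + 256 * t) ^ 3)
    (hs1 : vv K s = 1) : t = s := by
  have hkey : (t - s) * (1 - s * t * (196608 + 16777216 * (s + t))) = 0 := by
    linear_combination s * ht - t * hs
  rcases mul_eq_zero.mp hkey with h | h
  · exact sub_eq_zero.mp h
  exfalso
  have h1 : s * t * (196608 + 16777216 * (s + t)) = 1 := (sub_eq_zero.mp h).symm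
  have ht0 : t ≠ 0 := by
    rintro rfl
    simp at h1
  obtain ⟨m, hm⟩ := vv_eq_coe ht0
  have hv := congrArg (vv K) h1
  rw [AddValuation.map_mul, AddValuation.map_mul, AddValuation.map_one, hs1, hm] at hv
  set c : LaurentSeries K := 196608 + 16777216 * (s + t) with hc
  have hc0 : c ≠ 0 := by
    rintro h0
    rw [h0, mul_zero] at h1
    exact zero_ne_one h1
  obtain ⟨k, hk⟩ := vv_eq_coe hc0
  rw [hk] at hv
  have hv' : (1 : ℤ) + m + k = 0 := by exact_mod_cast hv
  rcases lt_or_ge m 0 with hm0 | hm0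
  · -- `m < 0`: `v c = m`
    have h2 : vv K (s + t) = (m : WithTop ℤ) := by
      rw [add_comm, AddValuation.map_add_eq_of_lt_left, hm]
      rw [hm, hs1]
      exact_mod_cast (by omega : m < 1)
    have h3 : vv K (16777216 * (s + t)) = (m : WithTop ℤ) := by
      rw [AddValuation.map_mul, h2, vv_ofNat, zero_add]
    have h4 : vv K c = (m : WithTop ℤ) := by
      rw [hc, add_comm, AddValuation.map_add_eq_of_lt_left, h3]
      rw [h3, vv_ofNat]
      exact_mod_cast hm0
    rw [hk] at h4
    have h5 : k = m := by exact_mod_cast h4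
    omega
  · -- `m ≥ 0`: `v c ≥ 0`
    have h2 : (0 : WithTop ℤ) ≤ vv K (s + t) := by
      refine le_trans (le_min ?_ ?_) (AddValuation.map_add _ _ _)
      · rw [hs1]; exact zero_le_one
      · rw [hm]; exact_mod_cast hm0
    have h3 : (0 : WithTop ℤ) ≤ vv K (16777216 * (s + t)) := by
      rw [AddValuation.map_mul, vv_ofNat, zero_add]
      exact h2
    have h4 : (0 : WithTop ℤ) ≤ vv K c := by
      refine le_trans (le_min ?_ h3) (AddValuation.map_add _ _ _)
      rw [vv_ofNat]
    rw [hk] at h4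
    have h5 : (0 : ℤ) ≤ k := by exact_mod_cast h4
    omega

/-- **Uniqueness for the quartic relation.** -/
theorem quartic_unique [CharZero K] (j s t : LaurentSeries K)
    (hs : j * s = (1 + 27 * s) * (1 + 243 * s) ^ 3)
    (ht : j * t = (1 + 27 * t) * (1 + 243 * t) ^ 3)
    (hs1 : vv K s = 1) : t = s := by
  have hkey : (t - s) * (1 - s * t * (387420489 * t ^ 2 +
      (196830 + 19131876 * (s + t) + 387420489 * (s ^ 2 + s * t)))) = 0 := by
    linear_combination s * ht - t * hs
  rcases mul_eq_zero.mp hkey with h | h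
  · exact sub_eq_zero.mp h
  exfalso
  have h1 : s * t * (387420489 * t ^ 2 +
      (196830 + 19131876 * (s + t) + 387420489 * (s ^ 2 + s * t))) = 1 := (sub_eq_zero.mp h).symm
  have ht0 : t ≠ 0 := by
    rintro rfl
    simp at h1
  obtain ⟨m, hm⟩ := vv_eq_coe ht0
  have hv := congrArg (vv K) h1
  rw [AddValuation.map_mul, AddValuation.map_mul, AddValuation.map_one, hs1, hm] at hv
  set r : LaurentSeries K := 196830 + 19131876 * (s + t) + 387420489 * (s ^ 2 + s * t) with hr
  set c : LaurentSeries K := 387420489 * t ^ 2 + r with hc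
  have hc0 : c ≠ 0 := by
    rintro h0
    rw [h0, mul_zero] at h1
    exact zero_ne_one h1
  obtain ⟨k, hk⟩ := vv_eq_coe hc0
  rw [hk] at hv
  have hv' : (1 : ℤ) + m + k = 0 := by exact_mod_cast hv
  have hst : vv K (s * t) = ((1 + m : ℤ) : WithTop ℤ) := by
    rw [AddValuation.map_mul, hs1, hm]; norm_cast
  have hs2 : vv K (s ^ 2) = ((2 : ℤ) : WithTop ℤ) := by
    rw [AddValuation.map_pow, hs1]; norm_cast
  rcases lt_or_ge m 0 with hm0 | hm0
  · -- `m < 0`: `v r ≥ m`, `v (a₄ t²) = 2 m`, so `v c = 2 m`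
    have h2 : ((m : ℤ) : WithTop ℤ) ≤ vv K (s + t) := by
      refine le_trans (le_min ?_ ?_) (AddValuation.map_add _ _ _)
      · rw [hs1]; exact_mod_cast (by omega : m ≤ 1)
      · rw [hm]
    have h3 : ((m : ℤ) : WithTop ℤ) ≤ vv K (19131876 * (s + t)) := by
      rw [AddValuation.map_mul, vv_ofNat, zero_add]; exact h2
    have h4 : ((m : ℤ) : WithTop ℤ) ≤ vv K (s ^ 2 + s * t) := by
      refine le_trans (le_min ?_ ?_) (AddValuation.map_add _ _ _)
      · rw [hs2]; exact_mod_cast (by omega : m ≤ 2)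
      · rw [hst]; exact_mod_cast (by omega : m ≤ 1 + m)
    have h5 : ((m : ℤ) : WithTop ℤ) ≤ vv K (387420489 * (s ^ 2 + s * t)) := by
      rw [AddValuation.map_mul, vv_ofNat, zero_add]; exact h4
    have h6 : ((m : ℤ) : WithTop ℤ) ≤ vv K r := by
      rw [hr]
      refine le_trans (le_min (le_trans (le_min ?_ h3) (AddValuation.map_add _ _ _)) h5)
        (AddValuation.map_add _ _ _)
      rw [vv_ofNat]; exact_mod_cast hm0.le
    have h7 : vv K (387420489 * t ^ 2) = ((2 * m : ℤ) : WithTop ℤ) := by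
      rw [AddValuation.map_mul, vv_ofNat, zero_add, AddValuation.map_pow, hm]; norm_cast
    have h8 : vv K c = ((2 * m : ℤ) : WithTop ℤ) := by
      rw [hc, AddValuation.map_add_eq_of_lt_left, h7]
      rw [h7]
      refine lt_of_lt_of_le ?_ h6
      exact_mod_cast (by omega : 2 * m < m)
    rw [hk] at h8
    have h9 : k = 2 * m := by exact_mod_cast h8
    omega
  · -- `m ≥ 0`: `v c ≥ 0`
    have h2 : (0 : WithTop ℤ) ≤ vv K (s + t) := by
      refine le_trans (le_min ?_ ?_) (AddValuation.map_add _ _ _)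
      · rw [hs1]; exact zero_le_one
      · rw [hm]; exact_mod_cast hm0
    have h3 : (0 : WithTop ℤ) ≤ vv K (19131876 * (s + t)) := by
      rw [AddValuation.map_mul, vv_ofNat, zero_add]; exact h2
    have h4 : (0 : WithTop ℤ) ≤ vv K (s ^ 2 + s * t) := by
      refine le_trans (le_min ?_ ?_) (AddValuation.map_add _ _ _)
      · rw [hs2]; exact_mod_cast (by norm_num : (0 : ℤ) ≤ 2)
      · rw [hst]; exact_mod_cast (by omega : (0 : ℤ) ≤ 1 + m)
    have h5 : (0 : WithTop ℤ) ≤ vv K (387420489 * (s ^ 2 + s * t)) := by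
      rw [AddValuation.map_mul, vv_ofNat, zero_add]; exact h4
    have h6 : (0 : WithTop ℤ) ≤ vv K r := by
      rw [hr]
      refine le_trans (le_min (le_trans (le_min ?_ h3) (AddValuation.map_add _ _ _)) h5)
        (AddValuation.map_add _ _ _)
      rw [vv_ofNat]
    have h7 : (0 : WithTop ℤ) ≤ vv K (387420489 * t ^ 2) := by
      rw [AddValuation.map_mul, vv_ofNat, zero_add, AddValuation.map_pow, hm]
      exact_mod_cast (by positivity : (0 : ℤ) ≤ 2 * m)
    have h8 : (0 : WithTop ℤ) ≤ vv K c := by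
      rw [hc]
      exact le_trans (le_min h7 h6) (AddValuation.map_add _ _ _)
    rw [hk] at h8
    have h9 : (0 : ℤ) ≤ k := by exact_mod_cast h8
    omega

theorem ofNat_ne_zero' [CharZero K] (n : ℕ) [n.AtLeastTwo] :
    (OfNat.ofNat n : LaurentSeries K) ≠ 0 := by
  intro h
  have h1 := vv_ofNat (K := K) n
  rw [h, AddValuation.map_zero] at h1
  exact WithTop.top_ne_zero h1

/-- The only root of `(X + 256)^3 - j X^2` in `K((q))` is `s⁻¹`. -/
theorem cubic_root_unique [CharZero K] (j s r : LaurentSeries K)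
    (hs : j * s = (1 + 256 * s) ^ 3) (hs1 : vv K s = 1)
    (hr : (r + 256) ^ 3 = j * r ^ 2) : r = s⁻¹ := by
  have hr0 : r ≠ 0 := by
    rintro rfl
    have h256 : (256 : LaurentSeries K) ≠ 0 := ofNat_ne_zero' 256
    simp at hr
    exact h256 hr
  have ht : j * r⁻¹ = (1 + 256 * r⁻¹) ^ 3 := by
    field_simp
    linear_combination -hr
  rw [← cubic_unique j s r⁻¹ hs ht hs1, inv_inv]

/-- The only root of `(X + 27)(X + 243)^3 - j X^3` in `K((q))` is `s⁻¹`. -/
theorem quartic_root_unique [CharZero K] (j s r : LaurentSeries K)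
    (hs : j * s = (1 + 27 * s) * (1 + 243 * s) ^ 3) (hs1 : vv K s = 1)
    (hr : (r + 27) * (r + 243) ^ 3 = j * r ^ 3) : r = s⁻¹ := by
  have hr0 : r ≠ 0 := by
    rintro rfl
    have h27 : (27 : LaurentSeries K) ≠ 0 := ofNat_ne_zero' 27
    have h243 : (243 : LaurentSeries K) ≠ 0 := ofNat_ne_zero' 243
    simp at hr
    rcases hr with h | h
    · exact h27 h
    · exact h243 h
  have ht : j * r⁻¹ = (1 + 27 * r⁻¹) * (1 + 243 * r⁻¹) ^ 3 := by
    field_simp
    linear_combination -hr
  rw [← quartic_unique j s r⁻¹ hs ht hs1, inv_inv]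

end Fermat.Agent.S30.AuxA.Uniq
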