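import Mathlib
import Fermat.Prelude.Def_ModularCurve_X0ModL
import Fermat.Agent.S30.AuxLevel.Haupt
import Fermat.Agent.S30.AuxA.Uniq
import Fermat.Agent.S30.AuxA.Field

/-!
# Variant A (auxiliary base for `ℓ = 2, 3`): the fields `F_N(t_r)` inside `L((q))`

`t2 L`, `t3 L` are helper243's Hauptmodul series (`S30/AuxLevel/Haupt.lean`), valid over every
commutative ring, with `j · t₂² = (t₂ + 256)³` and `j · t₃³ = (t₃ + 27)(t₃ + 243)³`.

For a field `L ⊇ ℚ` we put `Fb N L = laurentBaseChange L (modularFunctionFieldFull N)` (the level-`N`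
function field over `L`) and `Lb2 N L = laurentBaseChange L (ℚ(divisorExpansions N, t₂))`, and prove

* `mem_Lb2_iff` : `Lb2 N L = (Fb N L)(t₂)` as sets;
* `algebra_adjoin_t2`, `field_adjoin_t2` : `Lb2 = Fb[t₂]` for the inclusion algebra;
* `finrank_Lb2` : `[Lb2 : Fb] ∈ {1, 3}`  (polynomial degree + uniqueness of the root in `L((q))`);
* the same for `t₃` : `[Lb3 : Fb] ∈ {1, 2, 4}`.

No level-`rN` modular input is used.
-/

set_option autoImplicit false
set_option linter.style.haveILetI false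
set_option linter.unusedSectionVars false

noncomputable section

namespace Fermat.Agent.S30.AuxA.Inst

open ModularCurve IntermediateField Polynomial
open Fermat.Agent.S30.AuxLevel Fermat.Agent.S30.AuxA.Uniq Fermat.Agent.S30.AuxA.Field

/-! ### Coefficient maps -/

section CoeffMap

variable {R S : Type*} [CommRing R] [CommRing S]

theorem coeffMap_em (f : R →+* S) (A : PowerSeries ℤ) : coeffMap f (em R A) = em S A := by
  rw [em_apply, em_apply, coeffMap_ofPowerSeries,
    ← RingHom.comp_apply (PowerSeries.map f) (PowerSeries.map (Int.castRingHom R)),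
    ← PowerSeries.map_comp, RingHom.ext_int (f.comp (Int.castRingHom R)) (Int.castRingHom S)]

theorem coeffMap_xinv (f : R →+* S) : coeffMap f (xinv R) = xinv S := by
  rw [xinv, xinv, coeffMap_single, map_one]

theorem coeffMap_t2 (f : R →+* S) : coeffMap f (t2 R) = t2 S := by
  rw [t2, t2, map_mul, coeffMap_xinv, coeffMap_em]

theorem coeffMap_t3 (f : R →+* S) : coeffMap f (t3 R) = t3 S := by
  rw [t3, t3, map_mul, coeffMap_xinv, coeffMap_em]

end CoeffMap

/-! ### Orders -/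

section Val

variable (K : Type*) [Field K]

theorem vv_em (A : PowerSeries ℤ) (hA : PowerSeries.constantCoeff A = 1) :
    vv K (em K A) = 0 := by
  rw [HahnSeries.addVal_apply]
  apply le_antisymm
  · refine HahnSeries.orderTop_le_of_coeff_ne_zero (g := (0 : ℤ)) ?_
    rw [em_apply, show ((0 : ℤ)) = ((0 : ℕ) : ℤ) from rfl, HahnSeries.ofPowerSeries_apply_coeff,
      PowerSeries.coeff_map, PowerSeries.coeff_zero_eq_constantCoeff_apply, hA]
    simp
  · rw [HahnSeries.le_orderTop_iff_forall]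
    intro j hj
    have hj' : j < 0 := by exact_mod_cast hj
    rw [em_apply]
    have := PowerSeries.coeff_coe (A.map (Int.castRingHom K)) j
    rw [if_pos hj'] at this
    exact this

theorem vv_xinv : vv K (xinv K) = ((-1 : ℤ) : WithTop ℤ) := by
  rw [HahnSeries.addVal_apply, xinv, HahnSeries.orderTop_single one_ne_zero]

theorem vv_t2 : vv K (t2 K) = ((-1 : ℤ) : WithTop ℤ) := by
  rw [t2, AddValuation.map_mul, vv_xinv, vv_em K _ constantCoeff_t2Num, add_zero]

theorem vv_t3 : vv K (t3 K) = ((-1 : ℤ) : WithTop ℤ) := by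
  rw [t3, AddValuation.map_mul, vv_xinv, vv_em K _ constantCoeff_t3Num, add_zero]

theorem t2_ne_zero : t2 K ≠ 0 := by
  intro h
  have h1 := vv_t2 K
  rw [h, AddValuation.map_zero] at h1
  exact WithTop.top_ne_coe h1

theorem t3_ne_zero : t3 K ≠ 0 := by
  intro h
  have h1 := vv_t3 K
  rw [h, AddValuation.map_zero] at h1
  exact WithTop.top_ne_coe h1

theorem vv_inv_of_neg_one {x : LaurentSeries K} (hx : vv K x = ((-1 : ℤ) : WithTop ℤ)) :
    vv K x⁻¹ = 1 := by
  have hx0 : x ≠ 0 := by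
    rintro rfl
    rw [AddValuation.map_zero] at hx
    exact WithTop.top_ne_coe hx
  have hi0 : x⁻¹ ≠ 0 := inv_ne_zero hx0
  obtain ⟨m, hm⟩ := vv_eq_coe hi0
  have h1 : vv K (x * x⁻¹) = 0 := by
    rw [mul_inv_cancel₀ hx0, AddValuation.map_one]
  rw [AddValuation.map_mul, hx, hm] at h1
  have h2 : (-1 : ℤ) + m = 0 := by exact_mod_cast h1
  rw [hm]
  have h3 : m = 1 := by omega
  rw [h3]
  rfl

/-- The only root of `(X + 256)³ - j X²` in `K((q))` is `t₂`. -/
theorem t2_unique [CharZero K] (r : LaurentSeries K)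
    (hr : (r + 256) ^ 3 = jqModC K * r ^ 2) : r = t2 K := by
  have hs : jqModC K * (t2 K)⁻¹ = (1 + 256 * (t2 K)⁻¹) ^ 3 := by
    have h := jq_mul_t2_sq K
    have h0 := t2_ne_zero K
    field_simp
    linear_combination h
  rw [cubic_root_unique (jqModC K) (t2 K)⁻¹ r hs (vv_inv_of_neg_one K (vv_t2 K)) hr, inv_inv]

/-- The only root of `(X + 27)(X + 243)³ - j X³` in `K((q))` is `t₃`. -/
theorem t3_unique [CharZero K] (r : LaurentSeries K)
    (hr : (r + 27) * (r + 243) ^ 3 = jqModC K * r ^ 3) : r = t3 K := by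
  have hs : jqModC K * (t3 K)⁻¹ = (1 + 27 * (t3 K)⁻¹) * (1 + 243 * (t3 K)⁻¹) ^ 3 := by
    have h := jq_mul_t3_cube K
    have h0 := t3_ne_zero K
    field_simp
    linear_combination h
  rw [quartic_root_unique (jqModC K) (t3 K)⁻¹ r hs (vv_inv_of_neg_one K (vv_t3 K)) hr, inv_inv]

end Val

/-! ### The fields -/

section Fields

variable (N : ℕ) [NeZero N] (L : Type*) [Field L] [Algebra ℚ L]

/-- `ℚ(j(q^d) : d ∣ N)(t₂)`. -/
def aux2 : IntermediateField ℚ (LaurentSeries ℚ) :=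
  IntermediateField.adjoin ℚ (divisorExpansions N ∪ {t2 ℚ})

/-- `ℚ(j(q^d) : d ∣ N)(t₃)`. -/
def aux3 : IntermediateField ℚ (LaurentSeries ℚ) :=
  IntermediateField.adjoin ℚ (divisorExpansions N ∪ {t3 ℚ})

/-- The level-`N` function field over `L`. -/
abbrev Fb : IntermediateField L (LaurentSeries L) :=
  laurentBaseChange L (modularFunctionFieldFull N)

/-- `Fb(t₂)`. -/
abbrev Lb2 : IntermediateField L (LaurentSeries L) := laurentBaseChange L (aux2 N)

/-- `Fb(t₃)`. -/
abbrev Lb3 : IntermediateField L (LaurentSeries L) := laurentBaseChange L (aux3 N)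

theorem coeffEmb_jq : coeffEmb L jq = jqModC L := by
  rw [← jqModC_rat, coeffEmb, coeffMap_jqModC]

theorem coeffEmb_t2 : coeffEmb L (t2 ℚ) = t2 L := coeffMap_t2 _

theorem coeffEmb_t3 : coeffEmb L (t3 ℚ) = t3 L := coeffMap_t3 _

theorem jq_mem_Fb : jqModC L ∈ Fb N L := by
  rw [← coeffEmb_jq]
  refine coeffEmb_mem_laurentBaseChange L ?_
  have h := jqd_mem_full N (one_dvd N)
  rwa [qExpand_one_apply] at h

theorem Fb_le_Lb2 : Fb N L ≤ Lb2 N L :=
  lbc_mono L (IntermediateField.adjoin.mono ℚ _ _ Set.subset_union_left)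

theorem Fb_le_Lb3 : Fb N L ≤ Lb3 N L :=
  lbc_mono L (IntermediateField.adjoin.mono ℚ _ _ Set.subset_union_left)

theorem mem_Lb2_iff (z : LaurentSeries L) :
    z ∈ Lb2 N L ↔ z ∈ IntermediateField.adjoin (Fb N L) {t2 L} := by
  have h := mem_lbc_insert_iff L (divisorExpansions N) (t2 ℚ) z
  rw [coeffEmb_t2] at h
  exact h

theorem mem_Lb3_iff (z : LaurentSeries L) :
    z ∈ Lb3 N L ↔ z ∈ IntermediateField.adjoin (Fb N L) {t3 L} := by
  have h := mem_lbc_insert_iff L (divisorExpansions N) (t3 ℚ) z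
  rw [coeffEmb_t3] at h
  exact h

theorem t2_mem_Lb2 : t2 L ∈ Lb2 N L := gen_mem (Fb N L) (Lb2 N L) (t2 L) (mem_Lb2_iff N L)

theorem t3_mem_Lb3 : t3 L ∈ Lb3 N L := gen_mem (Fb N L) (Lb3 N L) (t3 L) (mem_Lb3_iff N L)

/-- `j` as an element of `Fb`. -/
def jb : Fb N L := ⟨jqModC L, jq_mem_Fb N L⟩

/-- `(X + 256)³ - j X²`. -/
def cubic : (Fb N L)[X] := (X + C 256) ^ 3 - C (jb N L) * X ^ 2

/-- `(X + 27)(X + 243)³ - j X³`. -/
def quartic : (Fb N L)[X] := (X + C 27) * (X + C 243) ^ 3 - C (jb N L) * X ^ 3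

theorem cubic_natDegree : (cubic N L).natDegree = 3 := by
  have h1 : ((X + C (256 : Fb N L)) ^ 3).natDegree = 3 := by
    rw [(monic_X_add_C _).natDegree_pow, natDegree_X_add_C]
  rw [cubic, natDegree_sub_eq_left_of_natDegree_lt, h1]
  rw [h1]
  exact lt_of_le_of_lt (natDegree_C_mul_X_pow_le _ _) (by norm_num)

theorem cubic_monic : (cubic N L).Monic := by
  have h1 : ((X + C (256 : Fb N L)) ^ 3).natDegree = 3 := by
    rw [(monic_X_add_C _).natDegree_pow, natDegree_X_add_C]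
  refine Monic.sub_of_left ((monic_X_add_C _).pow 3) (degree_lt_degree ?_)
  rw [h1]
  exact lt_of_le_of_lt (natDegree_C_mul_X_pow_le _ _) (by norm_num)

theorem quartic_natDegree : (quartic N L).natDegree = 4 := by
  have h1 : ((X + C (27 : Fb N L)) * (X + C (243 : Fb N L)) ^ 3).natDegree = 4 := by
    rw [(monic_X_add_C _).natDegree_mul ((monic_X_add_C _).pow 3),
      (monic_X_add_C _).natDegree_pow, natDegree_X_add_C, natDegree_X_add_C]
  rw [quartic, natDegree_sub_eq_left_of_natDegree_lt, h1]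
  rw [h1]
  exact lt_of_le_of_lt (natDegree_C_mul_X_pow_le _ _) (by norm_num)

theorem quartic_monic : (quartic N L).Monic := by
  have h1 : ((X + C (27 : Fb N L)) * (X + C (243 : Fb N L)) ^ 3).natDegree = 4 := by
    rw [(monic_X_add_C _).natDegree_mul ((monic_X_add_C _).pow 3),
      (monic_X_add_C _).natDegree_pow, natDegree_X_add_C, natDegree_X_add_C]
  refine Monic.sub_of_left ((monic_X_add_C _).mul ((monic_X_add_C _).pow 3))
    (degree_lt_degree ?_)
  rw [h1]
  exact lt_of_le_of_lt (natDegree_C_mul_X_pow_le _ _) (by norm_num)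

theorem algebraMap_jb : algebraMap (Fb N L) (LaurentSeries L) (jb N L) = jqModC L := rfl

theorem aeval_cubic : aeval (t2 L) (cubic N L) = 0 := by
  have h := jq_mul_t2_sq L
  simp only [cubic, map_sub, map_pow, map_add, map_mul, aeval_X, aeval_C, algebraMap_jb,
    map_ofNat]
  linear_combination -h

theorem aeval_quartic : aeval (t3 L) (quartic N L) = 0 := by
  have h := jq_mul_t3_cube L
  simp only [quartic, map_sub, map_pow, map_add, map_mul, aeval_X, aeval_C, algebraMap_jb,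
    map_ofNat]
  linear_combination -h

theorem cubic_root_eq [CharZero L] (r : Fb N L) (hr : (cubic N L).eval r = 0) :
    algebraMap (Fb N L) (LaurentSeries L) r = t2 L := by
  have h := congrArg (algebraMap (Fb N L) (LaurentSeries L)) hr
  simp only [cubic, eval_sub, eval_pow, eval_add, eval_mul, eval_X, eval_C, map_sub, map_pow,
    map_add, map_mul, algebraMap_jb, map_ofNat, map_zero, eval_ofNat] at h
  have h' : (algebraMap (Fb N L) (LaurentSeries L) r + 256) ^ 3 =
      jqModC L * algebraMap (Fb N L) (LaurentSeries L) r ^ 2 := by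
    linear_combination h
  exact t2_unique L _ h'

theorem quartic_root_eq [CharZero L] (r : Fb N L) (hr : (quartic N L).eval r = 0) :
    algebraMap (Fb N L) (LaurentSeries L) r = t3 L := by
  have h := congrArg (algebraMap (Fb N L) (LaurentSeries L)) hr
  simp only [quartic, eval_sub, eval_pow, eval_add, eval_mul, eval_X, eval_C, map_sub, map_pow,
    map_add, map_mul, algebraMap_jb, map_ofNat, map_zero, eval_ofNat] at h
  have h' : (algebraMap (Fb N L) (LaurentSeries L) r + 27) *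
      (algebraMap (Fb N L) (LaurentSeries L) r + 243) ^ 3 =
      jqModC L * algebraMap (Fb N L) (LaurentSeries L) r ^ 3 := by
    linear_combination h
  exact t3_unique L _ h'

theorem isIntegral_t2 : IsIntegral (Fb N L) (t2 L) :=
  ⟨cubic N L, cubic_monic N L, by rw [← aeval_def]; exact aeval_cubic N L⟩

theorem isIntegral_t3 : IsIntegral (Fb N L) (t3 L) :=
  ⟨quartic N L, quartic_monic N L, by rw [← aeval_def]; exact aeval_quartic N L⟩

/-- `[Fb(t₂) : Fb] ∈ {1, 3}`. -/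
theorem finrank_Lb2 [CharZero L] :
    letI := inclAlg (Fb N L) (Lb2 N L) (Fb_le_Lb2 N L)
    Module.finrank (Fb N L) (Lb2 N L) = 1 ∨ Module.finrank (Fb N L) (Lb2 N L) = 3 := by
  letI := inclAlg (Fb N L) (Lb2 N L) (Fb_le_Lb2 N L)
  rw [finrank_eq (Fb N L) (Lb2 N L) (Fb_le_Lb2 N L) (t2 L) (mem_Lb2_iff N L) (isIntegral_t2 N L)]
  exact natDegree_minpoly_cubic (cubic N L) (cubic_monic N L) (cubic_natDegree N L) (t2 L)
    (aeval_cubic N L) (cubic_root_eq N L)

/-- `[Fb(t₃) : Fb] ∈ {1, 2, 4}`. -/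
theorem finrank_Lb3 [CharZero L] :
    letI := inclAlg (Fb N L) (Lb3 N L) (Fb_le_Lb3 N L)
    Module.finrank (Fb N L) (Lb3 N L) = 1 ∨ Module.finrank (Fb N L) (Lb3 N L) = 2 ∨
      Module.finrank (Fb N L) (Lb3 N L) = 4 := by
  letI := inclAlg (Fb N L) (Lb3 N L) (Fb_le_Lb3 N L)
  rw [finrank_eq (Fb N L) (Lb3 N L) (Fb_le_Lb3 N L) (t3 L) (mem_Lb3_iff N L) (isIntegral_t3 N L)]
  exact natDegree_minpoly_quartic (quartic N L) (quartic_monic N L) (quartic_natDegree N L)
    (t3 L) (aeval_quartic N L) (quartic_root_eq N L)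

/-- `Fb(t₂) = Fb[t₂]`. -/
theorem algebra_adjoin_t2 :
    letI := inclAlg (Fb N L) (Lb2 N L) (Fb_le_Lb2 N L)
    Algebra.adjoin (Fb N L) {(⟨t2 L, t2_mem_Lb2 N L⟩ : Lb2 N L)} = ⊤ :=
  algebra_adjoin_eq_top (Fb N L) (Lb2 N L) (Fb_le_Lb2 N L) (t2 L) (mem_Lb2_iff N L)
    (t2_mem_Lb2 N L) (isIntegral_t2 N L).isAlgebraic

theorem algebra_adjoin_t3 :
    letI := inclAlg (Fb N L) (Lb3 N L) (Fb_le_Lb3 N L)
    Algebra.adjoin (Fb N L) {(⟨t3 L, t3_mem_Lb3 N L⟩ : Lb3 N L)} = ⊤ :=
  algebra_adjoin_eq_top (Fb N L) (Lb3 N L) (Fb_le_Lb3 N L) (t3 L) (mem_Lb3_iff N L)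
    (t3_mem_Lb3 N L) (isIntegral_t3 N L).isAlgebraic

theorem field_adjoin_t2 :
    letI := inclAlg (Fb N L) (Lb2 N L) (Fb_le_Lb2 N L)
    IntermediateField.adjoin (Fb N L) {(⟨t2 L, t2_mem_Lb2 N L⟩ : Lb2 N L)} = ⊤ :=
  field_adjoin_eq_top (Fb N L) (Lb2 N L) (Fb_le_Lb2 N L) (t2 L) (mem_Lb2_iff N L)
    (t2_mem_Lb2 N L) (isIntegral_t2 N L).isAlgebraic

theorem field_adjoin_t3 :
    letI := inclAlg (Fb N L) (Lb3 N L) (Fb_le_Lb3 N L)
    IntermediateField.adjoin (Fb N L) {(⟨t3 L, t3_mem_Lb3 N L⟩ : Lb3 N L)} = ⊤ :=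
  field_adjoin_eq_top (Fb N L) (Lb3 N L) (Fb_le_Lb3 N L) (t3 L) (mem_Lb3_iff N L)
    (t3_mem_Lb3 N L) (isIntegral_t3 N L).isAlgebraic

end Fields

end Fermat.Agent.S30.AuxA.Inst
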