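/-
Row A.D of E2.Aux.A (helper42): constant-field DESCENT of the place form of "unramified at the
closed points off `T`", from `Ω` (algebraically closed) down to `E`.

`E ⊆ Ω` algebraic, characteristic zero; `L / E` and `Lb / Ω` fields with `Lb = L · Ω`; `u : L`.
If every place `w` of `Lb / Ω` at which `u - b` vanishes (`b ∉ T`) has `w.ord (u - b) = 1`, then
for every irreducible `f : E[X]` without roots in `T` and every place `v` of `L / E` with
`0 < v.ord (f u)` one has `v.ord (f u) = 1`.

Proof: lift `v` to an unramified `w` (`Lib.PlaceExt.exists_place_above`, helper139); over `Ω` the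
polynomial `f` is `c * ∏ (X - b_i)` with distinct roots, exactly one factor `u - b_i` has positive
order at `w`, and that order is `1`.  (Same argument as the generic part of helper204's
`S30/Ramif/HorizJ.lean`; restated here on a minimal import closure.)
-/
import Fermat.Agent.Lib.PlaceExt
import Fermat.Agent.S24.FF.Ord

set_option autoImplicit false

namespace Fermat.Agent.S30.AuxA.PlaceGlue

open AlgebraicCurve Polynomial

section Generic

variable {K F : Type*} [Field K] [Field F] [Algebra K F]

/-- A multiset of nonpositive integers has nonpositive sum. -/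
theorem multiset_sum_nonpos (s : Multiset ℤ) (h : ∀ x ∈ s, x ≤ 0) : s.sum ≤ 0 := by
  induction s using Multiset.induction with
  | empty => simp
  | cons a s ih =>
    rw [Multiset.sum_cons]
    have h1 := h a (Multiset.mem_cons_self a s)
    have h2 := ih fun x hx => h x (Multiset.mem_cons_of_mem hx)
    omega

/-- Order of a product over a multiset of nonzero elements. -/
theorem ord_multiset_prod (P : Place K F) (s : Multiset F) (hs : ∀ x ∈ s, x ≠ 0) :
    P.ord s.prod = (s.map P.ord).sum := by
  induction s using Multiset.induction with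
  | empty => simp [Place.ord_one]
  | cons a s ih =>
    have ha : a ≠ 0 := hs a (Multiset.mem_cons_self a s)
    have hs' : ∀ x ∈ s, x ≠ 0 := fun x hx => hs x (Multiset.mem_cons_of_mem hx)
    have hprod : s.prod ≠ 0 := Multiset.prod_ne_zero (fun h0 => hs' 0 h0 rfl)
    rw [Multiset.prod_cons, P.ord_mul ha hprod, ih hs', Multiset.map_cons, Multiset.sum_cons]

/-- At a place `P`, if a split separable polynomial `g` has `ord_P g(t) > 0`, then there is a
root `a` of `g` with `ord_P (t - a) > 0` and `ord_P g(t) = ord_P (t - a)`. -/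
theorem ord_aeval_eq_ord_sub (P : Place K F) (t : F)
    (g : K[X]) (hsplit : g.Splits) (hsep : g.Separable) (hpos : 0 < P.ord (aeval t g)) :
    ∃ a : K, g.IsRoot a ∧ 0 < P.ord (t - algebraMap K F a) ∧
      P.ord (aeval t g) = P.ord (t - algebraMap K F a) := by
  classical
  have hg0 : g ≠ 0 := hsep.ne_zero
  have hlc : algebraMap K F g.leadingCoeff ≠ 0 := by
    simpa using (algebraMap K F).injective.ne (leadingCoeff_ne_zero.mpr hg0)
  -- `t` is not a constant: otherwise `g(t)` is a constant, of order `0`
  have ht : ∀ a : K, t ≠ algebraMap K F a := by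
    rintro a rfl
    rw [aeval_algebraMap_apply, Fermat.Agent.S24.FF.ord_algebraMap] at hpos
    exact lt_irrefl _ hpos
  have hne : ∀ a : K, t - algebraMap K F a ≠ 0 := fun a h => ht a (sub_eq_zero.mp h)
  -- evaluate the factorisation at `t`
  have hfac : aeval t g = algebraMap K F g.leadingCoeff *
      (g.roots.map (fun a => t - algebraMap K F a)).prod := by
    conv_lhs => rw [hsplit.eq_prod_roots]
    rw [map_mul, aeval_C, map_multiset_prod, Multiset.map_map]
    congr 2
    refine Multiset.map_congr rfl fun a _ => ?_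
    simp
  have hs : ∀ x ∈ g.roots.map (fun a => t - algebraMap K F a), x ≠ 0 := by
    intro x hx
    obtain ⟨a, -, rfl⟩ := Multiset.mem_map.mp hx
    exact hne a
  have hprod0 : (g.roots.map (fun a => t - algebraMap K F a)).prod ≠ 0 :=
    Multiset.prod_ne_zero (fun h0 => hs 0 h0 rfl)
  have hord : P.ord (aeval t g) =
      (g.roots.map (fun a => P.ord (t - algebraMap K F a))).sum := by
    rw [hfac, P.ord_mul hlc hprod0, Fermat.Agent.S24.FF.ord_algebraMap, zero_add,
      ord_multiset_prod P _ hs, Multiset.map_map]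
    rfl
  -- some root has positive order
  have hex : ∃ a ∈ g.roots, 0 < P.ord (t - algebraMap K F a) := by
    by_contra hcon
    push Not at hcon
    have : (g.roots.map (fun a => P.ord (t - algebraMap K F a))).sum ≤ 0 :=
      multiset_sum_nonpos _ fun x hx => by
        obtain ⟨a, ha, rfl⟩ := Multiset.mem_map.mp hx
        exact hcon a ha
    omega
  obtain ⟨a, ha, hapos⟩ := hex
  refine ⟨a, (mem_roots hg0).mp ha, hapos, ?_⟩
  -- the other roots contribute `0`
  have hother : ∀ b ∈ g.roots.erase a, P.ord (t - algebraMap K F b) = 0 := by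
    intro b hb
    have hba : b ≠ a := by
      intro h
      subst h
      exact (Multiset.Nodup.mem_erase_iff (nodup_roots hsep)).mp hb |>.1 rfl
    have hc : algebraMap K F a - algebraMap K F b ≠ 0 := by
      rw [← map_sub]
      simpa using (algebraMap K F).injective.ne (sub_ne_zero.mpr hba.symm)
    have h1 : t - algebraMap K F b = (algebraMap K F a - algebraMap K F b) +
        (t - algebraMap K F a) := by ring
    have h2 : P.ord (algebraMap K F a - algebraMap K F b) = 0 := by
      rw [← map_sub]
      exact Fermat.Agent.S24.FF.ord_algebraMap P _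
    rw [h1, (Fermat.Agent.S24.FF.ord_add_eq_of_lt P (by rw [h2]; exact hapos) hc (hne a)), h2]
  rw [hord, ← Multiset.cons_erase ha, Multiset.map_cons, Multiset.sum_cons]
  have hzero : ((g.roots.erase a).map (fun a => P.ord (t - algebraMap K F a))).sum = 0 := by
    apply Multiset.sum_eq_zero
    intro x hx
    obtain ⟨b, hb, rfl⟩ := Multiset.mem_map.mp hx
    exact hother b hb
  rw [hzero, add_zero]

end Generic

section Descent

variable {E Ω L Lb : Type*} [Field E] [Field Ω] [Field L] [Field Lb] [CharZero E]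
  [IsAlgClosed Ω] [Algebra E Ω] [Algebra.IsAlgebraic E Ω] [Algebra E L] [Algebra Ω Lb]
  [Algebra L Lb] [Algebra E Lb] [IsScalarTower E Ω Lb] [IsScalarTower E L Lb]

omit [CharZero E] [IsAlgClosed Ω] [Algebra.IsAlgebraic E Ω] in
/-- The element `f(u)` of `L`, seen in `Lb`, is `f^Ω (u)`. -/
theorem algebraMap_aeval (u : L) (f : E[X]) :
    algebraMap L Lb (aeval u f) = aeval (algebraMap L Lb u) (f.map (algebraMap E Ω)) := by
  rw [aeval_map_algebraMap, aeval_algebraMap_apply]

omit [Algebra.IsAlgebraic E Ω] in
/-- Descent along ONE given unramified place `w` above `v` (no generation hypothesis, `Ω` only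
needs to split `f`): if the roots `b` of `f` in `Ω` satisfy "`0 < w.ord (u - b) → w.ord (u - b) = 1`",
then `0 < v.ord (f u) → v.ord (f u) = 1`. -/
theorem ord_aeval_eq_one_of_place (u : L) (f : E[X]) (hf : Irreducible f)
    (v : Place E L) (w : Place Ω Lb) (hw : ∀ x : L, w.ord (algebraMap L Lb x) = v.ord x)
    (hroot : ∀ b : Ω, aeval b f = 0 →
      0 < w.ord (algebraMap L Lb u - algebraMap Ω Lb b) →
      w.ord (algebraMap L Lb u - algebraMap Ω Lb b) = 1)
    (hpos : 0 < v.ord (aeval u f)) : v.ord (aeval u f) = 1 := by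
  rw [← hw, algebraMap_aeval (Ω := Ω)] at hpos ⊢
  obtain ⟨a, haroot, hapos, heq⟩ := ord_aeval_eq_ord_sub w (algebraMap L Lb u)
    (f.map (algebraMap E Ω)) (IsAlgClosed.splits _) hf.separable.map hpos
  rw [heq]
  refine hroot a ?_ hapos
  rw [aeval_def, ← eval_map]
  exact haroot

/-- **Row A.D (literal statement of #2341).**  Constant-field descent `Ω → E` of the place form
of "`Lb / Ω(u)` is unramified at the closed points off `T`": for `f : E[X]` irreducible with no
root in `T` and a place `v` of `L / E`, `0 < v.ord (f u) → v.ord (f u) = 1`.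
(The hypothesis `h0` is not used; it is kept so that the signature is the frozen one.) -/
theorem ord_aeval_eq_one
    (hgen : IntermediateField.adjoin L (Set.range (algebraMap Ω Lb)) = ⊤) (u : L) (T : Set Ω)
    (hbar : ∀ (w : Place Ω Lb) (b : Ω), b ∉ T →
      0 < w.ord (algebraMap L Lb u - algebraMap Ω Lb b) →
      w.ord (algebraMap L Lb u - algebraMap Ω Lb b) = 1)
    (f : E[X]) (hf : Irreducible f) (hfT : ∀ b ∈ T, aeval b f ≠ 0)
    (v : Place E L) (_h0 : 0 ≤ v.ord u) (hpos : 0 < v.ord (aeval u f)) :
    v.ord (aeval u f) = 1 := by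
  obtain ⟨w, hw⟩ := Fermat.Agent.Lib.PlaceExt.exists_place_above (E := E) (Ω := Ω) hgen v
  exact ord_aeval_eq_one_of_place (Ω := Ω) u f hf v w hw
    (fun b hb => hbar w b (fun hbT => hfT b hbT hb)) hpos

/-- Variant without the (unused) integrality hypothesis on `u`. -/
theorem ord_aeval_eq_one'
    (hgen : IntermediateField.adjoin L (Set.range (algebraMap Ω Lb)) = ⊤) (u : L) (T : Set Ω)
    (hbar : ∀ (w : Place Ω Lb) (b : Ω), b ∉ T →
      0 < w.ord (algebraMap L Lb u - algebraMap Ω Lb b) →
      w.ord (algebraMap L Lb u - algebraMap Ω Lb b) = 1)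
    (f : E[X]) (hf : Irreducible f) (hfT : ∀ b ∈ T, aeval b f ≠ 0)
    (v : Place E L) (hpos : 0 < v.ord (aeval u f)) :
    v.ord (aeval u f) = 1 := by
  obtain ⟨w, hw⟩ := Fermat.Agent.Lib.PlaceExt.exists_place_above (E := E) (Ω := Ω) hgen v
  exact ord_aeval_eq_one_of_place (Ω := Ω) u f hf v w hw
    (fun b hb => hbar w b (fun hbT => hfT b hbT hb)) hpos

omit [Algebra.IsAlgebraic E Ω] in
/-- Shape requested in #2498: the place-lifting property `hup` as a HYPOTHESIS instead of the
generation hypothesis (instantiate `hup` with `S18.PlaceUp.exists_place_up`). -/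
theorem ord_eq_one_of_lift
    (hup : ∀ v : Place E L, ∃ w : Place Ω Lb, ∀ x : L, w.ord (algebraMap L Lb x) = v.ord x)
    (u : L) (T : Set Ω)
    (hbar : ∀ (w : Place Ω Lb) (b : Ω), b ∉ T →
      0 < w.ord (algebraMap L Lb u - algebraMap Ω Lb b) →
      w.ord (algebraMap L Lb u - algebraMap Ω Lb b) = 1)
    (f : E[X]) (hf : Irreducible f) (hfT : ∀ b ∈ T, aeval b f ≠ 0)
    (v : Place E L) (_h0 : 0 ≤ v.ord u) (hpos : 0 < v.ord (aeval u f)) :
    v.ord (aeval u f) = 1 := by
  obtain ⟨w, hw⟩ := hup v
  exact ord_aeval_eq_one_of_place (Ω := Ω) u f hf v w hw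
    (fun b hb => hbar w b (fun hbT => hfT b hbT hb)) hpos

omit [Algebra.IsAlgebraic E Ω] in
/-- `ord_eq_one_of_lift` without the (unused) hypothesis `0 ≤ v.ord u`. -/
theorem ord_eq_one_of_lift'
    (hup : ∀ v : Place E L, ∃ w : Place Ω Lb, ∀ x : L, w.ord (algebraMap L Lb x) = v.ord x)
    (u : L) (T : Set Ω)
    (hbar : ∀ (w : Place Ω Lb) (b : Ω), b ∉ T →
      0 < w.ord (algebraMap L Lb u - algebraMap Ω Lb b) →
      w.ord (algebraMap L Lb u - algebraMap Ω Lb b) = 1)
    (f : E[X]) (hf : Irreducible f) (hfT : ∀ b ∈ T, aeval b f ≠ 0)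
    (v : Place E L) (hpos : 0 < v.ord (aeval u f)) :
    v.ord (aeval u f) = 1 := by
  obtain ⟨w, hw⟩ := hup v
  exact ord_aeval_eq_one_of_place (Ω := Ω) u f hf v w hw
    (fun b hb => hbar w b (fun hbT => hfT b hbT hb)) hpos

end Descent

end Fermat.Agent.S30.AuxA.PlaceGlue
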